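import Mathlib
import Fermat.Prelude.Def_CuspForm_IntegralStructure
import Fermat.Prelude.Def_CuspForm_HeckeAlgebra

set_option autoImplicit false

namespace Fermat.Agent.S23.H30

open UpperHalfPlane ModularForm CongruenceSubgroup Polynomial
open scoped MatrixGroups ModularForm Manifold

/-- The coset space `SL(2,ℤ) / Γ₀(N)` used by Mathlib's norm and trace maps. -/
def Q (N : ℕ) : Type :=
  ↥𝒮ℒ ⧸ ((Gamma0 N : Subgroup (GL (Fin 2) ℝ))).subgroupOf 𝒮ℒ

noncomputable instance instFintypeQ (N : ℕ) [NeZero N] : Fintype (Q N) :=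
  Fintype.ofFinite (↥𝒮ℒ ⧸ ((Gamma0 N : Subgroup (GL (Fin 2) ℝ))).subgroupOf 𝒮ℒ)

noncomputable instance instDecidableEqQ (N : ℕ) : DecidableEq (Q N) := Classical.decEq _

/-- The trivial coset. -/
def q₀ (N : ℕ) : Q N :=
  (QuotientGroup.mk (1 : ↥𝒮ℒ) : ↥𝒮ℒ ⧸ ((Gamma0 N : Subgroup (GL (Fin 2) ℝ))).subgroupOf 𝒮ℒ)

/-- The conjugates `f ∣[k] h⁻¹` of a `Γ₀(N)`-invariant form, indexed by cosets `q = ⟦h⟧`. -/
noncomputable def conj {N : ℕ} {k : ℤ} {F : Type*} [FunLike F ℍ ℂ]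
    [SlashInvariantFormClass F (Gamma0 N : Subgroup (GL (Fin 2) ℝ)) k] (f : F) (q : Q N) : ℍ → ℂ :=
  SlashInvariantForm.quotientFunc (ℋ := 𝒮ℒ) f q

/-- Holomorphic, `1`-periodic and bounded at `i∞`: these functions have a `q`-expansion. -/
structure IsNice (F : ℍ → ℂ) : Prop where
  mdiff : MDiff F
  periodic : Function.Periodic (F ∘ UpperHalfPlane.ofComplex) 1
  bdd : IsBoundedAtImInfty F

/-- Interface E1: level one forms are stable under field automorphisms of `ℂ` acting on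
`q`-expansion coefficients. -/
def LevelOneGalois : Prop :=
  ∀ (σ : ℂ ≃+* ℂ) (k : ℤ) (h : ModularForm 𝒮ℒ k),
    ∃ h' : ModularForm 𝒮ℒ k,
      ∀ n : ℕ, (qExpansion 1 h').coeff n = σ ((qExpansion 1 h).coeff n)

/-- Interface E2: a primitive element with rational `q`-expansion and distinct conjugates. -/
def PrimitiveExists (N : ℕ) [NeZero N] : Prop :=
  ∃ u : ModularForm (Gamma0 N) 12,
    (∀ n : ℕ, ∃ r : ℚ, (qExpansion 1 u).coeff n = (r : ℂ)) ∧
    ∀ q : Q N, q ≠ q₀ N → conj u q ≠ ⇑u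

/-- Interface E3a: coefficients of the characteristic polynomial over level one. -/
def CharpolyForms (N : ℕ) [NeZero N] : Prop :=
  ∀ (k : ℤ) (h : ModularForm (Gamma0 N) k) (j : ℕ), j ≤ Fintype.card (Q N) →
    ∃ e : ModularForm 𝒮ℒ (k * ((Fintype.card (Q N) - j : ℕ) : ℤ)),
      ∀ z, e z = (∏ q : Q N, (X - C (conj h q z))).coeff j

/-- Interface E3b: for cusp forms the lower coefficients vanish at `i∞`. -/
def CharpolyCuspForms (N : ℕ) [NeZero N] : Prop :=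
  ∀ (k : ℤ) (f : CuspForm (Gamma0 N) k) (j : ℕ), j < Fintype.card (Q N) →
    ∃ e : ModularForm 𝒮ℒ (k * ((Fintype.card (Q N) - j : ℕ) : ℤ)),
      IsZeroAtImInfty e ∧ ∀ z, e z = (∏ q : Q N, (X - C (conj f q z))).coeff j

/-- Interface E3c: traces of `f * u ^ l`. -/
def TraceForms (N : ℕ) [NeZero N] : Prop :=
  ∀ (k₁ k₂ : ℤ) (f : CuspForm (Gamma0 N) k₁) (u : ModularForm (Gamma0 N) k₂) (l : ℕ),
    ∃ t : ModularForm 𝒮ℒ (k₁ + k₂ * l), ∀ z, t z = ∑ q : Q N, conj f q z * conj u q z ^ l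

/-- Interface E4 (pure algebra): Lagrange interpolation in Horner / Bezout form, together with
the formula for the derivative at a root. -/
def LagrangeIdentity : Prop :=
  ∀ (ι : Type) [Fintype ι] [DecidableEq ι] (U F : ι → ℂ) (i₀ : ι),
    (∑ m ∈ Finset.range (Fintype.card ι), ∑ l ∈ Finset.range (Fintype.card ι - m),
        (∏ i, (X - C (U i))).coeff (m + 1 + l) * (∑ i, F i * U i ^ l) * U i₀ ^ m
      = F i₀ * ∏ i ∈ Finset.univ.erase i₀, (U i₀ - U i)) ∧
    (∑ m ∈ Finset.range (Fintype.card ι + 1),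
        (m : ℂ) * (∏ i, (X - C (U i))).coeff m * U i₀ ^ (m - 1)
      = ∏ i ∈ Finset.univ.erase i₀, (U i₀ - U i))

/-- Interface E5 (analytic core): a meromorphic quotient `G / D` of weight two which is a root
of a monic polynomial whose lower coefficients are level one, of the right weights and zero at
`i∞`, is a cusp form. -/
def AnalyticCore (N : ℕ) [NeZero N] : Prop :=
  ∀ (d : ℕ) (w : ℤ) (G D : ℍ → ℂ) (c : ℕ → ℍ → ℂ), 0 < d →
    MDiff G → MDiff D → (∀ i < d, MDiff (c i)) →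
    (∀ γ ∈ Gamma0 N, G ∣[w + 2] γ = G) → (∀ γ ∈ Gamma0 N, D ∣[w] γ = D) →
    (∀ i < d, ∀ γ : SL(2, ℤ), c i ∣[2 * ((d - i : ℕ) : ℤ)] γ = c i) →
    (∀ i < d, IsZeroAtImInfty (c i)) → D ≠ 0 →
    (∀ z, G z ^ d + ∑ i ∈ Finset.range d, c i z * G z ^ i * D z ^ (d - i) = 0) →
    ∃ g : CuspForm (Gamma0 N) 2, ∀ z, g z * D z = G z

/-- Main statement of block E: weight two cusp forms of level `Γ₀(N)` are stable under field
automorphisms of `ℂ` acting on `q`-expansion coefficients. -/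
def GaloisStable (N : ℕ) [NeZero N] : Prop :=
  ∀ (σ : ℂ ≃+* ℂ) (f : CuspForm (Gamma0 N) 2),
    ∃ g : CuspForm (Gamma0 N) 2, ∀ n : ℕ,
      ModularFormClass.qCoeff g n = σ (ModularFormClass.qCoeff f n)

end Fermat.Agent.S23.H30
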