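import Mathlib
import Fermat.Agent.S23.Defs_helper30

set_option autoImplicit false

namespace Fermat.Agent.S23.H73

open UpperHalfPlane ModularForm CongruenceSubgroup Polynomial SlashInvariantForm
open scoped MatrixGroups ModularForm Manifold Topology Filter

section general

variable {𝒢 : Subgroup (GL (Fin 2) ℝ)} (ℋ : Subgroup (GL (Fin 2) ℝ)) {F : Type*}
  [FunLike F ℍ ℂ] {k : ℤ}

/-- The `m`-th elementary symmetric function of the `ℋ`-translates of `f`. -/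
noncomputable def esymmFun [Fintype (ℋ ⧸ (𝒢.subgroupOf ℋ))] [SlashInvariantFormClass F 𝒢 k]
    (f : F) (m : ℕ) : ℍ → ℂ :=
  ∑ S ∈ (Finset.univ : Finset (ℋ ⧸ (𝒢.subgroupOf ℋ))).powersetCard m,
    ∏ q ∈ S, quotientFunc f q

lemma esymmFun_slash [Fintype (ℋ ⧸ (𝒢.subgroupOf ℋ))] [SlashInvariantFormClass F 𝒢 k]
    (f : F) (m : ℕ) (g : GL (Fin 2) ℝ) :
    esymmFun ℋ f m ∣[k * m] g =
      ∑ S ∈ (Finset.univ : Finset (ℋ ⧸ (𝒢.subgroupOf ℋ))).powersetCard m,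
        |g.det.val| ^ ((m : ℤ) - 1) • ∏ q ∈ S, (quotientFunc f q ∣[k] g) := by
  unfold esymmFun
  rw [SlashAction.sum_slash]
  refine Finset.sum_congr rfl fun S hS => ?_
  rw [Finset.mem_powersetCard] at hS
  rw [← hS.2, ModularForm.prod_slash]

lemma esymmFun_slash_mem [Fintype (ℋ ⧸ (𝒢.subgroupOf ℋ))] [SlashInvariantFormClass F 𝒢 k]
    [ℋ.HasDetPlusMinusOne] (f : F) (m : ℕ) {h : GL (Fin 2) ℝ} (hh : h ∈ ℋ) :
    esymmFun ℋ f m ∣[k * m] h = esymmFun ℋ f m := by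
  rw [esymmFun_slash, esymmFun]
  simp only [Subgroup.HasDetPlusMinusOne.abs_det hh, one_zpow, one_smul, quotientFunc_smul f hh]
  refine Finset.sum_equiv (Equiv.finsetCongr (MulAction.toPerm (⟨h, hh⟩⁻¹ : ℋ))) ?_ ?_
  · intro S
    simp [Finset.mem_powersetCard]
  · intro S _
    simp [Finset.prod_map]

variable {ℋ}

lemma quotientFunc_mdiff [ModularFormClass F 𝒢 k] (f : F) (q : ℋ ⧸ (𝒢.subgroupOf ℋ)) :
    MDiff (quotientFunc f q) := by
  induction q using Quotient.inductionOn with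
  | h r => exact (ModularForm.translate f r.val⁻¹).holo'

lemma quotientFunc_bdd [ModularFormClass F 𝒢 k] [𝒢.IsFiniteRelIndex ℋ] (f : F)
    (q : ℋ ⧸ (𝒢.subgroupOf ℋ))
    (γ : GL (Fin 2) ℝ) (h : IsCusp (γ • OnePoint.infty) ℋ) :
    IsBoundedAtImInfty (quotientFunc f q ∣[k] γ) := by
  induction q using Quotient.inductionOn with
  | h r =>
    obtain ⟨r, hr⟩ := r
    refine (ModularForm.translate f _).bdd_at_cusps' ?_ γ rfl
    simpa using h.of_isFiniteRelIndex_conj hr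

lemma quotientFunc_zero [CuspFormClass F 𝒢 k] [𝒢.IsFiniteRelIndex ℋ] (f : F)
    (q : ℋ ⧸ (𝒢.subgroupOf ℋ))
    (γ : GL (Fin 2) ℝ) (h : IsCusp (γ • OnePoint.infty) ℋ) :
    IsZeroAtImInfty (quotientFunc f q ∣[k] γ) := by
  induction q using Quotient.inductionOn with
  | h r =>
    obtain ⟨r, hr⟩ := r
    refine (CuspForm.translate f _).zero_at_cusps' ?_ γ rfl
    simpa using h.of_isFiniteRelIndex_conj hr

end general

section forms

variable {𝒢 : Subgroup (GL (Fin 2) ℝ)} (ℋ : Subgroup (GL (Fin 2) ℝ)) {F : Type*}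
  [FunLike F ℍ ℂ] {k : ℤ}

lemma esymmFun_mdiff [Fintype (ℋ ⧸ (𝒢.subgroupOf ℋ))] [ModularFormClass F 𝒢 k]
    (f : F) (m : ℕ) : MDiff (esymmFun ℋ f m) := by
  unfold esymmFun
  exact .sum fun S _ => .prod fun q _ => quotientFunc_mdiff f q

lemma esymmFun_bdd [Fintype (ℋ ⧸ (𝒢.subgroupOf ℋ))] [ModularFormClass F 𝒢 k]
    [𝒢.IsFiniteRelIndex ℋ] (f : F) (m : ℕ) (γ : GL (Fin 2) ℝ)
    (h : IsCusp (γ • OnePoint.infty) ℋ) :
    IsBoundedAtImInfty (esymmFun ℋ f m ∣[k * m] γ) := by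
  rw [esymmFun_slash]
  refine (boundedAtImInftySubalgebra ℂ).sum_mem fun S _ => ?_
  have h1 : IsBoundedAtImInfty (∏ q ∈ S, (quotientFunc f q ∣[k] γ)) :=
    (boundedAtImInftySubalgebra ℂ).prod_mem fun q _ => quotientFunc_bdd f q γ h
  exact Asymptotics.IsBigO.const_smul_left h1 _

lemma esymmFun_zero [Fintype (ℋ ⧸ (𝒢.subgroupOf ℋ))] [CuspFormClass F 𝒢 k]
    [𝒢.IsFiniteRelIndex ℋ] (f : F) (m : ℕ) (hm : 0 < m) (γ : GL (Fin 2) ℝ)
    (h : IsCusp (γ • OnePoint.infty) ℋ) :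
    IsZeroAtImInfty (esymmFun ℋ f m ∣[k * m] γ) := by
  classical
  rw [esymmFun_slash]
  refine (zeroAtImInftySubmodule ℂ).sum_mem fun S hS => ?_
  rw [Finset.mem_powersetCard] at hS
  have h1 : IsZeroAtImInfty (∏ q ∈ S, (quotientFunc f q ∣[k] γ)) := by
    have hne : S.Nonempty := by
      rw [← Finset.card_pos, hS.2]; exact hm
    obtain ⟨q₁, hq₁⟩ := hne
    rw [← Finset.mul_prod_erase S _ hq₁]
    exact Filter.ZeroAtFilter.mul_boundedAtFilter (quotientFunc_zero f q₁ γ h)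
      ((boundedAtImInftySubalgebra ℂ).prod_mem fun q _ =>
        (quotientFunc_zero f q γ h).isBoundedAtImInfty)
  exact Filter.ZeroAtFilter.smul _ h1

/-- The `m`-th elementary symmetric function of the translates, as a modular form. -/
noncomputable def esymmForm [Fintype (ℋ ⧸ (𝒢.subgroupOf ℋ))] [ModularFormClass F 𝒢 k]
    [𝒢.IsFiniteRelIndex ℋ] [ℋ.HasDetPlusMinusOne] (f : F) (m : ℕ) :
    ModularForm ℋ (k * m) where
  toFun := esymmFun ℋ f m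
  slash_action_eq' _ hh := esymmFun_slash_mem ℋ f m hh
  holo' := esymmFun_mdiff ℋ f m
  bdd_at_cusps' h γ := by
    rintro rfl
    exact esymmFun_bdd ℋ f m γ h

end forms

lemma coeff_prod_X_sub_C {ι : Type*} [Fintype ι] (c : ι → ℂ) (j : ℕ)
    (hj : j ≤ Fintype.card ι) :
    (∏ i, (X - C (c i))).coeff j = (-1) ^ (Fintype.card ι - j) *
      ∑ S ∈ (Finset.univ : Finset ι).powersetCard (Fintype.card ι - j), ∏ i ∈ S, c i := by
  have := Multiset.prod_X_sub_C_coeff ((Finset.univ : Finset ι).val.map c) (k := j)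
    (by simpa using hj)
  rw [Multiset.map_map, Finset.esymm_map_val] at this
  simpa using this

lemma esymmForm_apply {𝒢 : Subgroup (GL (Fin 2) ℝ)} (ℋ : Subgroup (GL (Fin 2) ℝ)) {F : Type*}
    [FunLike F ℍ ℂ] {k : ℤ} [Fintype (ℋ ⧸ (𝒢.subgroupOf ℋ))] [ModularFormClass F 𝒢 k]
    [𝒢.IsFiniteRelIndex ℋ] [ℋ.HasDetPlusMinusOne] (f : F) (m : ℕ) (z : ℍ) :
    esymmForm ℋ f m z =
      ∑ S ∈ (Finset.univ : Finset (ℋ ⧸ (𝒢.subgroupOf ℋ))).powersetCard m,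
        ∏ q ∈ S, quotientFunc f q z := by
  change esymmFun ℋ f m z = _
  simp [esymmFun, Finset.sum_apply, Finset.prod_apply]

theorem charpolyForms (N : ℕ) [NeZero N] : Fermat.Agent.S23.H30.CharpolyForms N := by
  intro k h j hj
  let : Fintype (↥𝒮ℒ ⧸ ((Gamma0 N : Subgroup (GL (Fin 2) ℝ))).subgroupOf 𝒮ℒ) :=
    H30.instFintypeQ N
  refine ⟨((-1 : ℂ) ^ (Fintype.card (H30.Q N) - j)) •
    esymmForm 𝒮ℒ h (Fintype.card (H30.Q N) - j), fun z => ?_⟩
  rw [coeff_prod_X_sub_C _ _ hj, smul_apply, esymmForm_apply, smul_eq_mul]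
  rfl

theorem charpolyCuspForms (N : ℕ) [NeZero N] : Fermat.Agent.S23.H30.CharpolyCuspForms N := by
  intro k f j hj
  let : Fintype (↥𝒮ℒ ⧸ ((Gamma0 N : Subgroup (GL (Fin 2) ℝ))).subgroupOf 𝒮ℒ) :=
    H30.instFintypeQ N
  refine ⟨((-1 : ℂ) ^ (Fintype.card (H30.Q N) - j)) •
    esymmForm 𝒮ℒ f (Fintype.card (H30.Q N) - j), ?_, fun z => ?_⟩
  · have h0 : IsZeroAtImInfty
        (esymmFun 𝒮ℒ f (Fintype.card (H30.Q N) - j) ∣[k * ((Fintype.card (H30.Q N) - j : ℕ) : ℤ)]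
          (1 : GL (Fin 2) ℝ)) :=
      esymmFun_zero 𝒮ℒ f _ (Nat.sub_pos_of_lt hj) 1 (by
        rw [one_smul]
        exact Fact.out)
    rw [SlashAction.slash_one] at h0
    exact Filter.ZeroAtFilter.smul _ h0
  · rw [coeff_prod_X_sub_C _ _ hj.le, smul_apply, esymmForm_apply, smul_eq_mul]
    rfl

end Fermat.Agent.S23.H73
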