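import Mathlib
import Fermat.Prelude.Thm_CongruenceSubgroup_one_mem_strictPeriods_Gamma0
import Fermat.Agent.S23.Defs_helper30

/-!
# E0: `IsNice` API (helper52)

`IsNice F` (holomorphic on `ℍ`, `1`-periodic, bounded at `i∞`) is closed under the ring
operations, contains all modular forms of level `Γ₀(N)` and level one, and the `q`-expansion
`qExpansion 1` is an injective ring homomorphism on nice functions.
-/

set_option autoImplicit false

namespace Fermat.Agent.S23.H52

open UpperHalfPlane ModularForm CongruenceSubgroup Function Filter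
open scoped MatrixGroups ModularForm Manifold Topology
open Fermat.Agent.S23.H30

/-! ### Closure properties -/

theorem isNice_const (c : ℂ) : IsNice (fun _ : ℍ => c) where
  mdiff := mdifferentiable_const
  periodic := fun _ => rfl
  bdd := Filter.const_boundedAtFilter _ c

theorem isNice_zero : IsNice (0 : ℍ → ℂ) := isNice_const 0

theorem isNice_one : IsNice (1 : ℍ → ℂ) := isNice_const 1

theorem _root_.Fermat.Agent.S23.H30.IsNice.add {F G : ℍ → ℂ} (hF : IsNice F) (hG : IsNice G) :
    IsNice (F + G) where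
  mdiff := hF.mdiff.add hG.mdiff
  periodic := hF.periodic.add hG.periodic
  bdd := hF.bdd.add hG.bdd

theorem _root_.Fermat.Agent.S23.H30.IsNice.neg {F : ℍ → ℂ} (hF : IsNice F) : IsNice (-F) where
  mdiff := hF.mdiff.neg
  periodic := fun w => congrArg Neg.neg (hF.periodic w)
  bdd := hF.bdd.neg

theorem _root_.Fermat.Agent.S23.H30.IsNice.sub {F G : ℍ → ℂ} (hF : IsNice F) (hG : IsNice G) :
    IsNice (F - G) where
  mdiff := hF.mdiff.sub hG.mdiff
  periodic := hF.periodic.sub hG.periodic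
  bdd := hF.bdd.sub hG.bdd

theorem _root_.Fermat.Agent.S23.H30.IsNice.mul {F G : ℍ → ℂ} (hF : IsNice F) (hG : IsNice G) :
    IsNice (F * G) where
  mdiff := hF.mdiff.mul hG.mdiff
  periodic := hF.periodic.mul hG.periodic
  bdd := hF.bdd.mul hG.bdd

theorem _root_.Fermat.Agent.S23.H30.IsNice.smul {F : ℍ → ℂ} (hF : IsNice F) (c : ℂ) :
    IsNice (c • F) := by
  have h : c • F = (fun _ : ℍ => c) * F := by
    ext z; simp
  rw [h]
  exact (isNice_const c).mul hF

theorem _root_.Fermat.Agent.S23.H30.IsNice.pow {F : ℍ → ℂ} (hF : IsNice F) (n : ℕ) :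
    IsNice (F ^ n) := by
  induction n with
  | zero => simpa using isNice_one
  | succ n ih => rw [pow_succ]; exact ih.mul hF

theorem _root_.Fermat.Agent.S23.H30.IsNice.sum {ι : Type*} {F : ι → ℍ → ℂ} (s : Finset ι)
    (h : ∀ i ∈ s, IsNice (F i)) : IsNice (∑ i ∈ s, F i) := by
  classical
  induction s using Finset.induction_on with
  | empty => simpa using isNice_zero
  | insert a s ha ih =>
    rw [Finset.sum_insert ha]
    exact (h a (Finset.mem_insert_self a s)).add
      (ih fun i hi => h i (Finset.mem_insert_of_mem hi))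

theorem _root_.Fermat.Agent.S23.H30.IsNice.prod {ι : Type*} {F : ι → ℍ → ℂ} (s : Finset ι)
    (h : ∀ i ∈ s, IsNice (F i)) : IsNice (∏ i ∈ s, F i) := by
  classical
  induction s using Finset.induction_on with
  | empty => simpa using isNice_one
  | insert a s ha ih =>
    rw [Finset.prod_insert ha]
    exact (h a (Finset.mem_insert_self a s)).mul
      (ih fun i hi => h i (Finset.mem_insert_of_mem hi))

/-! ### Modular forms are nice -/

theorem isNice_of_Gamma0 {N : ℕ} [NeZero N] {k : ℤ}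
    (f : ModularForm (Gamma0 N : Subgroup (GL (Fin 2) ℝ)) k) : IsNice ⇑f := by
  have h1 := CongruenceSubgroup.one_mem_strictPeriods_Gamma0 N
  have : Fact (IsCusp OnePoint.infty (Gamma0 N : Subgroup (GL (Fin 2) ℝ))) :=
    ⟨Subgroup.isCusp_of_mem_strictPeriods one_pos h1⟩
  exact ⟨ModularFormClass.holo f, SlashInvariantFormClass.periodic_comp_ofComplex f h1,
    ModularFormClass.bdd_at_infty f⟩

theorem isNice_of_cusp_Gamma0 {N : ℕ} [NeZero N] {k : ℤ}
    (f : CuspForm (Gamma0 N : Subgroup (GL (Fin 2) ℝ)) k) : IsNice ⇑f := by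
  have h1 := CongruenceSubgroup.one_mem_strictPeriods_Gamma0 N
  have : Fact (IsCusp OnePoint.infty (Gamma0 N : Subgroup (GL (Fin 2) ℝ))) :=
    ⟨Subgroup.isCusp_of_mem_strictPeriods one_pos h1⟩
  exact ⟨ModularFormClass.holo f, SlashInvariantFormClass.periodic_comp_ofComplex f h1,
    ModularFormClass.bdd_at_infty f⟩

theorem isNice_of_levelOne {k : ℤ} (h : ModularForm 𝒮ℒ k) : IsNice ⇑h := by
  have h1 : (1 : ℝ) ∈ (𝒮ℒ : Subgroup (GL (Fin 2) ℝ)).strictPeriods := by simp
  have : Fact (IsCusp OnePoint.infty (𝒮ℒ : Subgroup (GL (Fin 2) ℝ))) :=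
    ⟨Subgroup.isCusp_of_mem_strictPeriods one_pos h1⟩
  exact ⟨ModularFormClass.holo h, SlashInvariantFormClass.periodic_comp_ofComplex h h1,
    ModularFormClass.bdd_at_infty h⟩

theorem isNice_of_cusp_levelOne {k : ℤ} (h : CuspForm 𝒮ℒ k) : IsNice ⇑h := by
  have h1 : (1 : ℝ) ∈ (𝒮ℒ : Subgroup (GL (Fin 2) ℝ)).strictPeriods := by simp
  have : Fact (IsCusp OnePoint.infty (𝒮ℒ : Subgroup (GL (Fin 2) ℝ))) :=
    ⟨Subgroup.isCusp_of_mem_strictPeriods one_pos h1⟩
  exact ⟨ModularFormClass.holo h, SlashInvariantFormClass.periodic_comp_ofComplex h h1,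
    ModularFormClass.bdd_at_infty h⟩

/-- General form: any modular form for a subgroup with strict period `1` is nice. -/
theorem isNice_of_modularFormClass {Γ : Subgroup (GL (Fin 2) ℝ)} {k : ℤ} {M : Type*}
    [FunLike M ℍ ℂ] [ModularFormClass M Γ k] (h1 : (1 : ℝ) ∈ Γ.strictPeriods) (f : M) :
    IsNice ⇑f := by
  have : Fact (IsCusp OnePoint.infty Γ) := ⟨Subgroup.isCusp_of_mem_strictPeriods one_pos h1⟩
  exact ⟨ModularFormClass.holo f, SlashInvariantFormClass.periodic_comp_ofComplex f h1,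
    ModularFormClass.bdd_at_infty f⟩

/-! ### `q`-expansions of nice functions -/

theorem _root_.Fermat.Agent.S23.H30.IsNice.analyticAt {F : ℍ → ℂ} (hF : IsNice F) :
    AnalyticAt ℂ (cuspFunction 1 F) 0 :=
  analyticAt_cuspFunction_zero one_pos hF.periodic hF.mdiff hF.bdd

theorem _root_.Fermat.Agent.S23.H30.IsNice.hasSum_qExpansion {F : ℍ → ℂ} (hF : IsNice F)
    (τ : ℍ) :
    HasSum (fun m : ℕ => (qExpansion 1 F).coeff m • Function.Periodic.qParam 1 τ ^ m) (F τ) :=
  UpperHalfPlane.hasSum_qExpansion one_pos hF.periodic hF.mdiff hF.bdd τ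

theorem _root_.Fermat.Agent.S23.H30.IsNice.qExpansion_add {F G : ℍ → ℂ} (hF : IsNice F)
    (hG : IsNice G) : qExpansion 1 (F + G) = qExpansion 1 F + qExpansion 1 G :=
  UpperHalfPlane.qExpansion_add hF.analyticAt hG.analyticAt

theorem _root_.Fermat.Agent.S23.H30.IsNice.qExpansion_sub {F G : ℍ → ℂ} (hF : IsNice F)
    (hG : IsNice G) : qExpansion 1 (F - G) = qExpansion 1 F - qExpansion 1 G :=
  UpperHalfPlane.qExpansion_sub hF.analyticAt hG.analyticAt

theorem _root_.Fermat.Agent.S23.H30.IsNice.qExpansion_neg {F : ℍ → ℂ} (hF : IsNice F) :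
    qExpansion 1 (-F) = -qExpansion 1 F :=
  UpperHalfPlane.qExpansion_neg hF.analyticAt

theorem _root_.Fermat.Agent.S23.H30.IsNice.qExpansion_mul {F G : ℍ → ℂ} (hF : IsNice F)
    (hG : IsNice G) : qExpansion 1 (F * G) = qExpansion 1 F * qExpansion 1 G :=
  UpperHalfPlane.qExpansion_mul hF.analyticAt hG.analyticAt

theorem _root_.Fermat.Agent.S23.H30.IsNice.qExpansion_smul {F : ℍ → ℂ} (hF : IsNice F)
    (c : ℂ) : qExpansion 1 (c • F) = c • qExpansion 1 F :=
  UpperHalfPlane.qExpansion_smul hF.analyticAt c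

theorem qExpansion_const (c : ℂ) : qExpansion 1 (fun _ : ℍ => c) = PowerSeries.C c := by
  have h : (fun _ : ℍ => c) = c • (1 : ℍ → ℂ) := by
    ext z; simp
  rw [h, isNice_one.qExpansion_smul, UpperHalfPlane.qExpansion_one]
  ext n
  simp [PowerSeries.coeff_C, PowerSeries.coeff_one]

theorem _root_.Fermat.Agent.S23.H30.IsNice.qExpansion_pow {F : ℍ → ℂ} (hF : IsNice F)
    (n : ℕ) : qExpansion 1 (F ^ n) = qExpansion 1 F ^ n := by
  induction n with
  | zero => simpa using UpperHalfPlane.qExpansion_one 1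
  | succ n ih => rw [pow_succ, (hF.pow n).qExpansion_mul hF, ih, pow_succ]

theorem _root_.Fermat.Agent.S23.H30.IsNice.qExpansion_sum {ι : Type*} {F : ι → ℍ → ℂ}
    (s : Finset ι) (h : ∀ i ∈ s, IsNice (F i)) :
    qExpansion 1 (∑ i ∈ s, F i) = ∑ i ∈ s, qExpansion 1 (F i) := by
  classical
  induction s using Finset.induction_on with
  | empty => simpa using UpperHalfPlane.qExpansion_zero 1
  | insert a s ha ih =>
    rw [Finset.sum_insert ha, Finset.sum_insert ha,
      (h a (Finset.mem_insert_self a s)).qExpansion_add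
        (IsNice.sum s fun i hi => h i (Finset.mem_insert_of_mem hi)),
      ih fun i hi => h i (Finset.mem_insert_of_mem hi)]

theorem _root_.Fermat.Agent.S23.H30.IsNice.qExpansion_prod {ι : Type*} {F : ι → ℍ → ℂ}
    (s : Finset ι) (h : ∀ i ∈ s, IsNice (F i)) :
    qExpansion 1 (∏ i ∈ s, F i) = ∏ i ∈ s, qExpansion 1 (F i) := by
  classical
  induction s using Finset.induction_on with
  | empty => simpa using UpperHalfPlane.qExpansion_one 1
  | insert a s ha ih =>
    rw [Finset.prod_insert ha, Finset.prod_insert ha,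
      (h a (Finset.mem_insert_self a s)).qExpansion_mul
        (IsNice.prod s fun i hi => h i (Finset.mem_insert_of_mem hi)),
      ih fun i hi => h i (Finset.mem_insert_of_mem hi)]

/-! ### Injectivity and the value at `i∞` -/

theorem _root_.Fermat.Agent.S23.H30.IsNice.eq_zero_of_qExpansion_eq_zero {F : ℍ → ℂ}
    (hF : IsNice F) (h : qExpansion 1 F = 0) : F = 0 :=
  (UpperHalfPlane.qExpansion_eq_zero_iff one_pos hF.periodic hF.mdiff hF.bdd).mp h

theorem _root_.Fermat.Agent.S23.H30.IsNice.eq_of_qExpansion_eq {F G : ℍ → ℂ}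
    (hF : IsNice F) (hG : IsNice G) (h : qExpansion 1 F = qExpansion 1 G) : F = G := by
  have h0 : qExpansion 1 (F - G) = 0 := by rw [hF.qExpansion_sub hG, h, sub_self]
  exact sub_eq_zero.mp ((hF.sub hG).eq_zero_of_qExpansion_eq_zero h0)

theorem _root_.Fermat.Agent.S23.H30.IsNice.qExpansion_coeff_zero {F : ℍ → ℂ} (_hF : IsNice F) :
    (qExpansion 1 F).coeff 0 = cuspFunction 1 F 0 := by
  simp [UpperHalfPlane.qExpansion_coeff]

theorem _root_.Fermat.Agent.S23.H30.IsNice.tendsto_atImInfty {F : ℍ → ℂ} (hF : IsNice F) :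
    Tendsto F atImInfty (𝓝 ((qExpansion 1 F).coeff 0)) := by
  have hcomp : (cuspFunction 1 F ∘ fun τ : ℍ => Function.Periodic.qParam 1 τ : ℍ → ℂ) = F := by
    funext τ
    simpa using eq_cuspFunction τ one_ne_zero hF.periodic
  have h := hF.analyticAt.continuousAt.tendsto.comp (qParam_tendsto_atImInfty one_pos)
  rw [hcomp] at h
  rw [hF.qExpansion_coeff_zero]
  exact h

theorem _root_.Fermat.Agent.S23.H30.IsNice.isZeroAtImInfty_iff {F : ℍ → ℂ} (hF : IsNice F) :
    IsZeroAtImInfty F ↔ (qExpansion 1 F).coeff 0 = 0 := by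
  constructor
  · intro h
    rw [hF.qExpansion_coeff_zero]
    exact h.cuspFunction_apply_zero one_pos
  · intro h
    have := hF.tendsto_atImInfty
    rw [h] at this
    exact this

end Fermat.Agent.S23.H52
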