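import Mathlib
import Fermat.Prelude.Def_ModularForm_HeckeOperator
import Fermat.Prelude.Thm_CongruenceSubgroup_one_mem_strictPeriods_Gamma0
import Fermat.Agent.S23.Defs_helper30

/-!
# Block (E), interface E2: the primitive element `u = Δ ∣[12] diag(N, 1)`

`uForm N : ModularForm (Gamma0 N) 12` is (up to the factor `N ^ 11`) the form `z ↦ Δ(N z)`.
We prove that its `q`-expansion is rational, and the stabiliser lemma: an element of `SL(2, ℤ)`
fixing `uForm N` under the weight `12` slash action lies in `Γ₀(N)`.  Together these give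
`Fermat.Agent.S23.H30.PrimitiveExists N`.
-/

set_option autoImplicit false

namespace Fermat.Agent.S23.H35

section part1

open UpperHalfPlane ModularForm CongruenceSubgroup Matrix.SpecialLinearGroup
open scoped MatrixGroups ModularForm Pointwise

theorem mapGL_val (γ : SL(2, ℤ)) :
    ((mapGL ℝ γ : GL (Fin 2) ℝ) : Matrix (Fin 2) (Fin 2) ℝ) =
      !![((γ 0 0 : ℤ) : ℝ), ((γ 0 1 : ℤ) : ℝ); ((γ 1 0 : ℤ) : ℝ), ((γ 1 1 : ℤ) : ℝ)] := by
  rw [mapGL_coe_matrix]
  ext i j
  fin_cases i <;> fin_cases j <;> rfl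

theorem val_heckeDiagMatrix_inv (N : ℕ) [NeZero N] :
    (((heckeDiagMatrix N)⁻¹ : GL (Fin 2) ℝ) : Matrix (Fin 2) (Fin 2) ℝ) = !![(N : ℝ)⁻¹, 0; 0, 1] := by
  have hN : (N : ℝ) ≠ 0 := Nat.cast_ne_zero.mpr (NeZero.ne N)
  rw [Matrix.coe_units_inv, val_heckeDiagMatrix (NeZero.ne N)]
  apply Matrix.inv_eq_right_inv
  ext i j
  fin_cases i <;> fin_cases j <;> simp [Matrix.mul_apply, Fin.sum_univ_two, hN]

/-- `diag(N,1) * γ * diag(N,1)⁻¹` is integral for `γ ∈ Γ₀(N)`. -/
theorem gamma0_le_conj (N : ℕ) [NeZero N] :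
    ((Gamma0 N : Subgroup SL(2, ℤ)) : Subgroup (GL (Fin 2) ℝ)) ≤
      ConjAct.toConjAct (heckeDiagMatrix N)⁻¹ • (𝒮ℒ : Subgroup (GL (Fin 2) ℝ)) := by
  rintro _ ⟨γ, hγ, rfl⟩
  rw [Subgroup.mem_pointwise_smul_iff_inv_smul_mem, ConjAct.smul_def]
  rw [← ConjAct.toConjAct_inv, ConjAct.ofConjAct_toConjAct, inv_inv]
  have hN : (N : ℝ) ≠ 0 := Nat.cast_ne_zero.mpr (NeZero.ne N)
  have hγ' : (N : ℤ) ∣ γ 1 0 := by
    have := Gamma0_mem.mp hγ
    exact (ZMod.intCast_zmod_eq_zero_iff_dvd _ _).mp this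
  obtain ⟨c', hc'⟩ := hγ'
  have hdet' : (!![γ 0 0, N * γ 0 1; c', γ 1 1] : Matrix (Fin 2) (Fin 2) ℤ).det = 1 := by
    have hdet := γ.det_coe
    rw [Matrix.det_fin_two] at hdet
    rw [Matrix.det_fin_two_of]
    rw [hc'] at hdet
    linarith
  let δ : SL(2, ℤ) := ⟨!![γ 0 0, N * γ 0 1; c', γ 1 1], hdet'⟩
  refine ⟨δ, ?_⟩
  apply Units.ext
  have hd : ((heckeDiagMatrix N : GL (Fin 2) ℝ) : Matrix (Fin 2) (Fin 2) ℝ) = !![(N : ℝ), 0; 0, 1] :=
    val_heckeDiagMatrix (NeZero.ne N)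
  have hc'' : ((γ 1 0 : ℤ) : ℝ) = N * c' := by rw [hc']; push_cast; ring
  rw [Units.val_mul, Units.val_mul, hd, val_heckeDiagMatrix_inv, mapGL_val, mapGL_val]
  have e00 : δ 0 0 = γ 0 0 := rfl
  have e01 : δ 0 1 = N * γ 0 1 := rfl
  have e10 : δ 1 0 = c' := rfl
  have e11 : δ 1 1 = γ 1 1 := rfl
  rw [e00, e01, e10, e11, hc'']
  ext i j
  fin_cases i <;> fin_cases j <;>
    simp [Matrix.mul_apply, Fin.sum_univ_two] <;> field_simp

/-- The form `u = Δ ∣[12] diag(N,1)`, i.e. `u(z) = N^11 Δ(N z)`, as a modular form for `Γ₀(N)`. -/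
noncomputable def uForm (N : ℕ) [NeZero N] : ModularForm (Gamma0 N) 12 where
  toFun := ⇑(CuspForm.discriminant) ∣[(12 : ℤ)] (heckeDiagMatrix N)
  slash_action_eq' γ hγ :=
    (ModularForm.translate CuspForm.discriminant (heckeDiagMatrix N)).slash_action_eq' γ
      (gamma0_le_conj N hγ)
  holo' := (ModularForm.translate CuspForm.discriminant (heckeDiagMatrix N)).holo'
  bdd_at_cusps' hc :=
    (ModularForm.translate CuspForm.discriminant (heckeDiagMatrix N)).bdd_at_cusps'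
      (hc.mono (gamma0_le_conj N))

theorem coe_uForm (N : ℕ) [NeZero N] :
    (⇑(uForm N) : ℍ → ℂ) = ⇑(CuspForm.discriminant) ∣[(12 : ℤ)] (heckeDiagMatrix N) := rfl

theorem uForm_apply (N : ℕ) [NeZero N] (z : ℍ) :
    uForm N z = (N : ℂ) ^ (11 : ℕ) * ModularForm.discriminant (heckeDiagMatrix N • z) := by
  rw [coe_uForm, slash_heckeDiagMatrix_apply (12 : ℤ) (NeZero.ne N)]
  norm_num

end part1

section part2

open UpperHalfPlane ModularForm CongruenceSubgroup Matrix.SpecialLinearGroup Function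
open scoped MatrixGroups ModularForm Pointwise

local notation "𝕢" => Periodic.qParam

theorem qParam_heckeDiag (N : ℕ) [NeZero N] (z : ℍ) :
    𝕢 1 ((heckeDiagMatrix N • z : ℍ) : ℂ) = 𝕢 1 (z : ℂ) ^ N := by
  rw [coe_heckeDiagMatrix_smul (NeZero.ne N)]
  simp only [Periodic.qParam, Complex.ofReal_one, div_one]
  rw [← Complex.exp_nat_mul]
  congr 1
  ring

/-- The coefficient sequence of `uForm N`. -/
noncomputable def uCoeff (N : ℕ) (n : ℕ) : ℂ :=
  if N ∣ n then (N : ℂ) ^ (11 : ℕ) * (qExpansion 1 ModularForm.discriminant).coeff (n / N) else 0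

theorem hasSum_uForm (N : ℕ) [NeZero N] (z : ℍ) :
    HasSum (fun n : ℕ => uCoeff N n • 𝕢 1 (z : ℂ) ^ n) (uForm N z) := by
  have h1 := ModularForm.hasSum_qExpansion (f := CuspForm.discriminant) one_pos
    one_mem_strictPeriods_SL (heckeDiagMatrix N • z)
  have h2 := h1.mul_left ((N : ℂ) ^ (11 : ℕ))
  rw [uForm_apply]
  have hinj : Function.Injective (fun m : ℕ => N * m) := mul_right_injective₀ (NeZero.ne N)
  refine (hinj.hasSum_iff ?_).mp ?_
  · intro n hn
    have : ¬ N ∣ n := fun ⟨m, hm⟩ => hn ⟨m, hm.symm⟩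
    simp [uCoeff, this]
  · have hfun : ((fun n : ℕ => uCoeff N n • 𝕢 1 (z : ℂ) ^ n) ∘ fun m : ℕ => N * m) =
        fun i => (N : ℂ) ^ (11 : ℕ) * ((qExpansion 1 (⇑CuspForm.discriminant)).coeff i *
          𝕢 1 ((heckeDiagMatrix N • z : ℍ) : ℂ) ^ i) := by
      funext m
      have hdiv : N * m / N = m := Nat.mul_div_cancel_left _ (Nat.pos_of_ne_zero (NeZero.ne N))
      simp only [Function.comp_apply, uCoeff, dvd_mul_right, if_true, smul_eq_mul, hdiv,
        qParam_heckeDiag, pow_mul, CuspForm.coe_discriminant]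
      ring
    rw [hfun]
    exact h2

theorem qExpansion_uForm_coeff (N : ℕ) [NeZero N] (n : ℕ) :
    (qExpansion 1 (uForm N)).coeff n = uCoeff N n :=
  (ModularFormClass.qExpansion_coeff_unique one_pos (one_mem_strictPeriods_Gamma0 N)
    (hasSum_uForm N) n).symm

/-- Power series with rational coefficients. -/
noncomputable def ratPS : Subring (PowerSeries ℂ) := (PowerSeries.map (algebraMap ℚ ℂ)).range

theorem mem_ratPS_iff (p : PowerSeries ℂ) :
    p ∈ ratPS ↔ ∀ n : ℕ, ∃ r : ℚ, p.coeff n = (r : ℂ) := by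
  constructor
  · rintro ⟨P, rfl⟩ n
    exact ⟨P.coeff n, by simp⟩
  · intro h
    choose r hr using h
    refine ⟨PowerSeries.mk r, ?_⟩
    ext n
    simp [hr n]

theorem map_eq_self_of_mem_ratPS (σ : ℂ →+* ℂ) {p : PowerSeries ℂ} (hp : p ∈ ratPS) :
    PowerSeries.map σ p = p := by
  obtain ⟨P, rfl⟩ := hp
  ext n
  simp

open EisensteinSeries in
theorem qExpansion_E_mem {k : ℕ} (hk : 3 ≤ k) (hk2 : Even k) :
    qExpansion 1 (E hk) ∈ ratPS := by
  rw [mem_ratPS_iff]
  intro n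
  rw [E_qExpansion_coeff hk hk2]
  split_ifs with h
  · exact ⟨1, by simp⟩
  · exact ⟨-(2 * k / bernoulli k) * (ArithmeticFunction.sigma (k - 1) n : ℚ), by push_cast; ring⟩

theorem qExpansion_discriminant_mem : qExpansion 1 ModularForm.discriminant ∈ ratPS := by
  have h4 : qExpansion 1 E₄ ∈ ratPS := qExpansion_E_mem _ ⟨2, rfl⟩
  have h6 : qExpansion 1 E₆ ∈ ratPS := qExpansion_E_mem _ ⟨3, rfl⟩
  let F : ModularForm 𝒮ℒ 12 :=
    ModularForm.mcast (by decide) (E₄.mul (E₄.mul E₄)) - ModularForm.mcast (by decide) (E₆.mul E₆)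
  have hF : (ModularForm.discriminant : ℍ → ℂ) = ⇑((1 / 1728 : ℂ) • F) := by
    funext z
    rw [discriminant_eq_E₄_cube_sub_E₆_sq z]
    change _ = (1 / 1728 : ℂ) * (E₄ z * (E₄ z * E₄ z) - E₆ z * E₆ z)
    ring
  have hqF : qExpansion 1 F = qExpansion 1 E₄ * (qExpansion 1 E₄ * qExpansion 1 E₄) -
      qExpansion 1 E₆ * qExpansion 1 E₆ := by
    simp only [F, FunLike.coe_sub, ModularForm.coe_mcast,
      ModularForm.qExpansion_sub one_pos one_mem_strictPeriods_SL,
      ModularForm.qExpansion_mul one_pos one_mem_strictPeriods_SL]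
  rw [hF, FunLike.coe_smul, ModularForm.qExpansion_smul one_pos one_mem_strictPeriods_SL, hqF]
  have hc : PowerSeries.C (1 / 1728 : ℂ) ∈ ratPS :=
    ⟨PowerSeries.C (1 / 1728 : ℚ), by simp⟩
  rw [PowerSeries.smul_eq_C_mul]
  exact ratPS.mul_mem hc (ratPS.sub_mem (ratPS.mul_mem h4 (ratPS.mul_mem h4 h4)) (ratPS.mul_mem h6 h6))

theorem qExpansion_uForm_mem (N : ℕ) [NeZero N] : qExpansion 1 (uForm N) ∈ ratPS := by
  rw [mem_ratPS_iff]
  intro n
  rw [qExpansion_uForm_coeff, uCoeff]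
  split_ifs with h
  · obtain ⟨r, hr⟩ := (mem_ratPS_iff _).mp qExpansion_discriminant_mem (n / N)
    exact ⟨(N : ℚ) ^ (11 : ℕ) * r, by rw [hr]; push_cast; ring⟩
  · exact ⟨0, by simp⟩

/-- The `q`-expansion of `uForm N` is fixed by every ring endomorphism of `ℂ`. -/
theorem map_qExpansion_uForm (N : ℕ) [NeZero N] (σ : ℂ →+* ℂ) :
    PowerSeries.map σ (qExpansion 1 (uForm N)) = qExpansion 1 (uForm N) :=
  map_eq_self_of_mem_ratPS σ (qExpansion_uForm_mem N)

end part2

section part3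

open UpperHalfPlane ModularForm CongruenceSubgroup Matrix.SpecialLinearGroup Function
open scoped MatrixGroups ModularForm Pointwise

section upper

variable (a b d : ℝ) (ha : 0 < a) (hd : 0 < d)

theorem det_upperTriangularGL (had : a * d ≠ 0) :
    ((upperTriangularGL a b d had).det : ℝ) = a * d := by
  rw [Matrix.GeneralLinearGroup.val_det_apply, val_upperTriangularGL, Matrix.det_fin_two_of]
  ring

include ha hd in
theorem det_upperTriangularGL_pos (had : a * d ≠ 0) :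
    0 < ((upperTriangularGL a b d had).det : ℝ) := by
  rw [det_upperTriangularGL]; positivity

theorem denom_upperTriangularGL (had : a * d ≠ 0) (τ : ℍ) :
    UpperHalfPlane.denom (upperTriangularGL a b d had) τ = d := by
  simp [UpperHalfPlane.denom, val_upperTriangularGL]

include ha hd in
theorem coe_upperTriangularGL_smul (had : a * d ≠ 0) (τ : ℍ) :
    ((upperTriangularGL a b d had • τ : ℍ) : ℂ) = ((a : ℂ) * τ + b) / d := by
  rw [UpperHalfPlane.coe_smul_of_det_pos (det_upperTriangularGL_pos a b d ha hd had)]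
  simp [UpperHalfPlane.num, UpperHalfPlane.denom, val_upperTriangularGL]

include ha hd in
theorem im_upperTriangularGL_smul (had : a * d ≠ 0) (τ : ℍ) :
    (upperTriangularGL a b d had • τ : ℍ).im = a / d * τ.im := by
  have h := congrArg Complex.im (coe_upperTriangularGL_smul a b d ha hd had τ)
  rw [UpperHalfPlane.coe_im] at h
  rw [h]
  have : ((a : ℂ) * τ + b) / d = ((a / d : ℝ) : ℂ) * τ + ((b / d : ℝ) : ℂ) := by
    push_cast; field_simp
  rw [this]
  simp

include ha hd in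
theorem σ_upperTriangularGL (had : a * d ≠ 0) :
    UpperHalfPlane.σ (upperTriangularGL a b d had) = .refl ℝ ℂ := by
  rw [UpperHalfPlane.σ, if_pos (det_upperTriangularGL_pos a b d ha hd had)]

include ha hd in
theorem slash_upperTriangularGL_apply (k : ℤ) (had : a * d ≠ 0) (f : ℍ → ℂ) (τ : ℍ) :
    (f ∣[k] upperTriangularGL a b d had) τ =
      ((a * d : ℝ) : ℂ) ^ (k - 1) * (d : ℂ) ^ (-k) * f (upperTriangularGL a b d had • τ) := by
  rw [ModularForm.slash_apply, σ_upperTriangularGL a b d ha hd, det_upperTriangularGL,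
    denom_upperTriangularGL]
  have : |a * d| = a * d := abs_of_pos (by positivity)
  simp only [ContinuousAlgEquiv.refl_apply, this]
  ring

end upper

/-- Decomposition `diag(N,1) * γ = δ * [[g, B], [0, D]]` with `δ ∈ SL(2,ℤ)`, `g * D = N`,
`g ∣ γ 1 0`. -/
theorem exists_decomp (N : ℕ) [NeZero N] (γ : SL(2, ℤ)) :
    ∃ (δ : SL(2, ℤ)) (g D : ℕ) (B : ℤ) (hg : 0 < g) (hD : 0 < D),
      g * D = N ∧ (g : ℤ) ∣ γ 1 0 ∧
      heckeDiagMatrix N * (mapGL ℝ γ : GL (Fin 2) ℝ) =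
        (mapGL ℝ δ : GL (Fin 2) ℝ) *
          upperTriangularGL (g : ℝ) (B : ℝ) (D : ℝ)
            (mul_ne_zero (Nat.cast_ne_zero.mpr hg.ne') (Nat.cast_ne_zero.mpr hD.ne')) := by
  have hN0 : N ≠ 0 := NeZero.ne N
  set a := γ 0 0 with ha
  set b := γ 0 1 with hb
  set c := γ 1 0 with hc
  set d := γ 1 1 with hd
  have hdet : a * d - b * c = 1 := by
    have := γ.det_coe
    rw [Matrix.det_fin_two] at this
    exact this
  set g : ℕ := Int.gcd (N : ℤ) c with hgdef
  have hg0 : 0 < g := Int.gcd_pos_of_ne_zero_left _ (by exact_mod_cast hN0)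
  obtain ⟨D', hD'⟩ : (g : ℤ) ∣ (N : ℤ) := Int.gcd_dvd_left _ _
  obtain ⟨s, hs⟩ : (g : ℤ) ∣ c := Int.gcd_dvd_right _ _
  have hD'pos : 0 < D' := by
    have hNpos : (0 : ℤ) < N := by exact_mod_cast Nat.pos_of_ne_zero hN0
    have hgpos : (0 : ℤ) < g := by exact_mod_cast hg0
    rw [hD'] at hNpos
    by_contra hneg
    push Not at hneg
    nlinarith
  obtain ⟨D, rfl⟩ : ∃ D : ℕ, D' = D := ⟨D'.toNat, (Int.toNat_of_nonneg hD'pos.le).symm⟩
  have hDpos : 0 < D := by exact_mod_cast hD'pos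
  set x := Int.gcdA (N : ℤ) c with hx
  set y := Int.gcdB (N : ℤ) c with hy
  have hbez : (D : ℤ) * x + s * y = 1 := by
    have h := Int.gcd_eq_gcd_ab (N : ℤ) c
    rw [← hgdef, ← hx, ← hy] at h
    have hg' : (g : ℤ) ≠ 0 := by exact_mod_cast hg0.ne'
    apply mul_left_cancel₀ hg'
    calc (g : ℤ) * (D * x + s * y) = (g * D) * x + (g * s) * y := by ring
      _ = N * x + c * y := by rw [← hD', ← hs]
      _ = g := h.symm
      _ = g * 1 := by ring
  have hδdet : (!![a * D, b * N * x - y; s, d * x] : Matrix (Fin 2) (Fin 2) ℤ).det = 1 := by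
    rw [Matrix.det_fin_two_of]
    have hN' : (N : ℤ) = g * D := hD'
    linear_combination (D : ℤ) * x * hdet + hbez + (-(b * x * s)) * hN' + (b * x * D) * hs
  let δ : SL(2, ℤ) := ⟨!![a * D, b * N * x - y; s, d * x], hδdet⟩
  refine ⟨δ, g, D, y * d, hg0, hDpos, ?_, ⟨s, hs⟩, ?_⟩
  · exact_mod_cast hD'.symm
  · apply Units.ext
    rw [Units.val_mul, Units.val_mul, val_heckeDiagMatrix hN0, mapGL_val, mapGL_val,
      val_upperTriangularGL]
    have e00 : δ 0 0 = a * D := rfl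
    have e01 : δ 0 1 = b * N * x - y := rfl
    have e10 : δ 1 0 = s := rfl
    have e11 : δ 1 1 = d * x := rfl
    rw [e00, e01, e10, e11]
    have hNr : (N : ℝ) = g * D := by exact_mod_cast hD'
    have hcr : (c : ℝ) = g * s := by exact_mod_cast hs
    have hbezr : (D : ℝ) * x + s * y = 1 := by exact_mod_cast hbez
    have hdetr : (a : ℝ) * d - b * c = 1 := by exact_mod_cast hdet
    ext i j
    fin_cases i <;> fin_cases j <;>
      simp [Matrix.mul_apply, Fin.sum_univ_two]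
    · linear_combination (a : ℝ) * hNr
    · have e : ((γ 0 1 : ℤ) : ℝ) = b := rfl
      rw [e]
      linear_combination (-(D : ℝ) * y) * hdetr + (-(D : ℝ) * y * b) * hcr +
        ((y : ℝ) * b * s) * hNr + (-(N : ℝ) * b) * hbezr
    · linear_combination hcr
    · have e : ((γ 1 1 : ℤ) : ℝ) = d := rfl
      rw [e]
      linear_combination (-(d : ℝ)) * hbezr

end part3

section part4

open UpperHalfPlane ModularForm CongruenceSubgroup Matrix.SpecialLinearGroup Function Filter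
open scoped MatrixGroups ModularForm Pointwise Topology

/-- `u ∣ γ = Δ ∣ [[g, B], [0, D]]` with `g D = N`, `g ∣ γ 1 0`. -/
theorem slash_uForm_eq (N : ℕ) [NeZero N] (γ : SL(2, ℤ)) :
    ∃ (g D : ℕ) (B : ℤ) (hg : 0 < g) (hD : 0 < D),
      g * D = N ∧ (g : ℤ) ∣ γ 1 0 ∧
      (⇑(uForm N) ∣[(12 : ℤ)] γ) = ⇑CuspForm.discriminant ∣[(12 : ℤ)]
          upperTriangularGL (g : ℝ) (B : ℝ) (D : ℝ)
            (mul_ne_zero (Nat.cast_ne_zero.mpr hg.ne') (Nat.cast_ne_zero.mpr hD.ne')) := by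
  obtain ⟨δ, g, D, B, hg, hD, hgD, hgc, hdec⟩ := exists_decomp N γ
  refine ⟨g, D, B, hg, hD, hgD, hgc, ?_⟩
  have hdec' : heckeDiagMatrix N * ((γ : SL(2, ℤ)) : GL (Fin 2) ℝ) =
      (mapGL ℝ δ : GL (Fin 2) ℝ) * upperTriangularGL (g : ℝ) (B : ℝ) (D : ℝ)
        (mul_ne_zero (Nat.cast_ne_zero.mpr hg.ne') (Nat.cast_ne_zero.mpr hD.ne')) := hdec
  rw [coe_uForm, ModularForm.SL_slash, ← SlashAction.slash_mul, hdec', SlashAction.slash_mul]
  congr 1
  exact SlashInvariantFormClass.slash_action_eq CuspForm.discriminant _ ⟨δ, rfl⟩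

/-- A path to `i∞`. -/
noncomputable def expPath (t : ℝ) : ℍ := ⟨⟨0, Real.exp t⟩, Real.exp_pos t⟩

theorem im_expPath (t : ℝ) : (expPath t).im = Real.exp t := rfl

theorem tendsto_expPath : Tendsto expPath atTop atImInfty := by
  rw [atImInfty, tendsto_comap_iff]
  exact Real.tendsto_exp_atTop

theorem not_isBigO_exp {a b : ℝ} (hab : a < b) :
    ¬ (fun τ : ℍ => Real.exp (-2 * Real.pi * (a * τ.im))) =O[atImInfty]
      (fun τ : ℍ => Real.exp (-2 * Real.pi * (b * τ.im))) := by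
  intro h
  have h2 := h.comp_tendsto tendsto_expPath
  obtain ⟨C, hC⟩ := h2.bound
  have hpos : 0 < 2 * Real.pi * (b - a) := by
    have := Real.pi_pos
    have : 0 < b - a := sub_pos.mpr hab
    positivity
  have htend : Tendsto (fun t : ℝ => Real.exp (2 * Real.pi * (b - a) * Real.exp t)) atTop atTop :=
    Real.tendsto_exp_atTop.comp (Real.tendsto_exp_atTop.const_mul_atTop hpos)
  have h3 := htend.eventually_gt_atTop C
  obtain ⟨t, ht1, ht2⟩ := (hC.and h3).exists
  simp only [Function.comp_apply, im_expPath, Real.norm_eq_abs, Real.abs_exp] at ht1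
  have hmul : Real.exp (2 * Real.pi * (b - a) * Real.exp t) *
      Real.exp (-2 * Real.pi * (b * Real.exp t)) = Real.exp (-2 * Real.pi * (a * Real.exp t)) := by
    rw [← Real.exp_add]; congr 1; ring
  have hE : 0 < Real.exp (-2 * Real.pi * (b * Real.exp t)) := Real.exp_pos _
  rw [← hmul] at ht1
  have := le_of_mul_le_mul_right ht1 hE
  linarith

theorem im_heckeDiagMatrix_smul (N : ℕ) [NeZero N] (τ : ℍ) :
    (heckeDiagMatrix N • τ : ℍ).im = N * τ.im := by
  have h := congrArg Complex.im (coe_heckeDiagMatrix_smul (NeZero.ne N) τ)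
  rw [UpperHalfPlane.coe_im] at h
  rw [h]
  simp

theorem heckeDiagMatrix_one_zero (N : ℕ) [NeZero N] : (heckeDiagMatrix N) 1 0 = 0 := by
  rw [val_heckeDiagMatrix (NeZero.ne N)]
  simp

theorem upperTriangularGL_one_zero (a b d : ℝ) (had : a * d ≠ 0) :
    (upperTriangularGL a b d had) 1 0 = 0 := by
  rw [val_upperTriangularGL]
  simp

/-- **Stabiliser lemma**: an element of `SL(2,ℤ)` fixing `u = Δ ∣ diag(N,1)` lies in `Γ₀(N)`. -/
theorem mem_Gamma0_of_slash_uForm_eq (N : ℕ) [NeZero N] (γ : SL(2, ℤ))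
    (h : (⇑(uForm N) ∣[(12 : ℤ)] γ) = ⇑(uForm N)) : γ ∈ Gamma0 N := by
  obtain ⟨g, D, B, hg, hD, hgD, hgc, hsl⟩ := slash_uForm_eq N γ
  have hgR : (0 : ℝ) < g := Nat.cast_pos.mpr hg
  have hDR : (0 : ℝ) < D := Nat.cast_pos.mpr hD
  set β := upperTriangularGL (g : ℝ) (B : ℝ) (D : ℝ)
    (mul_ne_zero (Nat.cast_ne_zero.mpr hg.ne') (Nat.cast_ne_zero.mpr hD.ne')) with hβ
  have hN0 : (N : ℂ) ≠ 0 := Nat.cast_ne_zero.mpr (NeZero.ne N)
  -- pointwise identity
  have key : ∀ τ : ℍ, ModularForm.discriminant (β • τ) =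
      (D : ℂ) ^ (12 : ℕ) * ModularForm.discriminant (heckeDiagMatrix N • τ) := by
    intro τ
    have h1 := congrFun (hsl.symm.trans h) τ
    rw [slash_upperTriangularGL_apply _ _ _ hgR hDR, uForm_apply] at h1
    have hgDc : ((g : ℝ) * (D : ℝ) : ℝ) = (N : ℝ) := by exact_mod_cast hgD
    rw [hgDc] at h1
    have hDc : (D : ℂ) ≠ 0 := Nat.cast_ne_zero.mpr hD.ne'
    have e1 : ((N : ℝ) : ℂ) ^ ((12 : ℤ) - 1) = (N : ℂ) ^ (11 : ℕ) := by
      norm_num
    have e2 : ((D : ℝ) : ℂ) ^ (-(12 : ℤ)) = ((D : ℂ) ^ (12 : ℕ))⁻¹ := by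
      rw [zpow_neg]; norm_num
    rw [e1, e2, CuspForm.coe_discriminant] at h1
    have hN11 : (N : ℂ) ^ (11 : ℕ) ≠ 0 := pow_ne_zero _ hN0
    have hD12 : (D : ℂ) ^ (12 : ℕ) ≠ 0 := pow_ne_zero _ hDc
    field_simp at h1
    linear_combination h1
  -- asymptotics
  have hA : (fun τ : ℍ => Real.exp (-2 * Real.pi * ((g / D : ℝ) * τ.im))) =O[atImInfty]
      (fun τ : ℍ => ModularForm.discriminant (β • τ)) := by
    have := exp_isBigO_discriminant.comp_tendsto
      (tendsto_smul_atImInfty (upperTriangularGL_one_zero (g : ℝ) (B : ℝ) (D : ℝ) _) : Tendsto (fun τ : ℍ => β • τ) atImInfty atImInfty)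
    refine this.congr_left ?_
    intro τ
    simp only [Function.comp_apply, hβ, im_upperTriangularGL_smul _ _ _ hgR hDR]
  have hB : (fun τ : ℍ => ModularForm.discriminant (heckeDiagMatrix N • τ)) =O[atImInfty]
      (fun τ : ℍ => Real.exp (-2 * Real.pi * ((N : ℝ) * τ.im))) := by
    have h0 := CuspFormClass.exp_decay_atImInfty CuspForm.discriminant one_pos
      one_mem_strictPeriods_SL
    have := h0.comp_tendsto (tendsto_smul_atImInfty (heckeDiagMatrix_one_zero N))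
    refine this.congr ?_ ?_
    · intro τ; rfl
    · intro τ
      simp only [Function.comp_apply, im_heckeDiagMatrix_smul, div_one]
  have hAB : (fun τ : ℍ => Real.exp (-2 * Real.pi * ((g / D : ℝ) * τ.im))) =O[atImInfty]
      (fun τ : ℍ => Real.exp (-2 * Real.pi * ((N : ℝ) * τ.im))) := by
    refine hA.trans ?_
    have : (fun τ : ℍ => ModularForm.discriminant (β • τ)) =
        fun τ : ℍ => (D : ℂ) ^ (12 : ℕ) * ModularForm.discriminant (heckeDiagMatrix N • τ) :=
      funext key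
    rw [this]
    exact hB.const_mul_left _
  have hle : (N : ℝ) ≤ g / D := by
    by_contra hlt
    exact not_isBigO_exp (not_le.mp hlt) hAB
  -- conclude D = 1
  have hND : N * D ≤ g := by
    have : (N : ℝ) * D ≤ g := by
      rwa [le_div_iff₀ hDR] at hle
    exact_mod_cast this
  have hD1 : D = 1 := by
    have h1 : g * D * D ≤ g := by rw [hgD]; exact hND
    have h2 : D * D ≤ 1 := by
      have : g * (D * D) ≤ g * 1 := by rw [mul_one, ← mul_assoc]; exact h1
      exact Nat.le_of_mul_le_mul_left this hg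
    nlinarith
  have hgN : g = N := by rw [← hgD, hD1, mul_one]
  rw [Gamma0_mem]
  rw [hgN] at hgc
  exact (ZMod.intCast_zmod_eq_zero_iff_dvd _ _).mpr hgc

end part4

section part5

open UpperHalfPlane ModularForm CongruenceSubgroup Matrix.SpecialLinearGroup Function Filter
open scoped MatrixGroups ModularForm Pointwise Topology

/-- Interface E2 of block (E): `u = Δ ∣[12] diag(N,1)` is a primitive element. -/
theorem primitiveExists (N : ℕ) [NeZero N] : Fermat.Agent.S23.H30.PrimitiveExists N := by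
  refine ⟨uForm N, (mem_ratPS_iff _).mp (qExpansion_uForm_mem N), ?_⟩
  intro q
  induction q using QuotientGroup.induction_on with
  | H h =>
    intro hq hconj
    apply hq
    obtain ⟨γ, hγ⟩ : ∃ γ : SL(2, ℤ), mapGL ℝ γ = (h : GL (Fin 2) ℝ) := h.2
    have hinv : mapGL ℝ γ⁻¹ = (h : GL (Fin 2) ℝ)⁻¹ := by rw [map_inv, hγ]
    have h1 : (⇑(uForm N) ∣[(12 : ℤ)] γ⁻¹) = ⇑(uForm N) := by
      have h2 : (⇑(uForm N) ∣[(12 : ℤ)] (h : GL (Fin 2) ℝ)⁻¹) = ⇑(uForm N) := hconj
      rw [← hinv] at h2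
      exact h2
    have hmem : γ⁻¹ ∈ Gamma0 N := mem_Gamma0_of_slash_uForm_eq N γ⁻¹ h1
    have hmem' : γ ∈ Gamma0 N := by simpa using inv_mem hmem
    change (QuotientGroup.mk h :
      ↥𝒮ℒ ⧸ ((Gamma0 N : Subgroup (GL (Fin 2) ℝ))).subgroupOf 𝒮ℒ) = QuotientGroup.mk 1
    rw [QuotientGroup.eq, Subgroup.mem_subgroupOf]
    simp only [Subgroup.coe_inv, mul_one]
    rw [← hinv]
    exact Subgroup.mem_map_of_mem _ hmem

end part5

end Fermat.Agent.S23.H35
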