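import Mathlib
import Fermat.Agent.S23.Defs_helper30
import Fermat.Agent.S23.Nice_helper52

/-!
# Block E6 of S23: the glue

From the interface statements of `Defs_helper30` (level one conjugation, a primitive element,
characteristic polynomial and trace forms, the Lagrange identity and the analytic core) we
deduce that `S₂(Γ₀(N))` is stable under field automorphisms of `ℂ` acting on `q`-expansions.
-/

set_option autoImplicit false

namespace Fermat.Agent.S23.H30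

open UpperHalfPlane ModularForm CongruenceSubgroup Polynomial
open scoped MatrixGroups ModularForm Manifold

open Fermat.Agent.S23.H52

/-- Weight-`k` slash invariance of a function under a subgroup of `SL(2, ℤ)`. -/
def SlInv (Γ : Subgroup SL(2, ℤ)) (k : ℤ) (F : ℍ → ℂ) : Prop :=
  ∀ γ ∈ Γ, F ∣[k] γ = F

theorem SlInv.weight_congr {Γ : Subgroup SL(2, ℤ)} {k k' : ℤ} {F : ℍ → ℂ}
    (h : SlInv Γ k F) (hk : k = k') : SlInv Γ k' F := hk ▸ h

theorem SlInv.mono {Γ Γ' : Subgroup SL(2, ℤ)} {k : ℤ} {F : ℍ → ℂ}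
    (h : SlInv Γ k F) (hΓ : Γ' ≤ Γ) : SlInv Γ' k F := fun γ hγ => h γ (hΓ hγ)

theorem slInv_zero (Γ : Subgroup SL(2, ℤ)) (k : ℤ) : SlInv Γ k (0 : ℍ → ℂ) :=
  fun γ _ => SlashAction.zero_slash k γ

theorem slInv_one (Γ : Subgroup SL(2, ℤ)) : SlInv Γ 0 (1 : ℍ → ℂ) :=
  fun γ _ => ModularForm.is_invariant_one γ

theorem SlInv.add {Γ : Subgroup SL(2, ℤ)} {k : ℤ} {F G : ℍ → ℂ}
    (hF : SlInv Γ k F) (hG : SlInv Γ k G) : SlInv Γ k (F + G) := fun γ hγ => by
  rw [SlashAction.add_slash, hF γ hγ, hG γ hγ]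

theorem SlInv.mul {Γ : Subgroup SL(2, ℤ)} {k₁ k₂ : ℤ} {F G : ℍ → ℂ}
    (hF : SlInv Γ k₁ F) (hG : SlInv Γ k₂ G) : SlInv Γ (k₁ + k₂) (F * G) := fun γ hγ => by
  rw [ModularForm.mul_slash_SL2, hF γ hγ, hG γ hγ]

theorem SlInv.smul {Γ : Subgroup SL(2, ℤ)} {k : ℤ} {F : ℍ → ℂ} (c : ℂ)
    (hF : SlInv Γ k F) : SlInv Γ k (c • F) := fun γ hγ => by
  rw [ModularForm.SL_smul_slash, hF γ hγ]

theorem SlInv.pow {Γ : Subgroup SL(2, ℤ)} {k : ℤ} {F : ℍ → ℂ}
    (hF : SlInv Γ k F) (n : ℕ) : SlInv Γ (k * n) (F ^ n) := by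
  induction n with
  | zero => simpa using slInv_one Γ
  | succ n ih =>
    rw [pow_succ]
    exact (ih.mul hF).weight_congr (by push_cast; ring)

theorem SlInv.sum {Γ : Subgroup SL(2, ℤ)} {k : ℤ} {ι : Type*} (s : Finset ι) {F : ι → ℍ → ℂ}
    (h : ∀ i ∈ s, SlInv Γ k (F i)) : SlInv Γ k (∑ i ∈ s, F i) := fun γ hγ => by
  rw [SlashAction.sum_slash]
  exact Finset.sum_congr rfl fun i hi => h i hi γ hγ

theorem slInv_of_levelOne {k : ℤ} (h : ModularForm 𝒮ℒ k) (Γ : Subgroup SL(2, ℤ)) :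
    SlInv Γ k ⇑h := fun γ _ => by
  rw [ModularForm.SL_slash]
  exact SlashInvariantFormClass.slash_action_eq h _ ⟨γ, rfl⟩

theorem slInv_of_Gamma0 {N : ℕ} {k : ℤ} (u : ModularForm (Gamma0 N) k) :
    SlInv (Gamma0 N) k ⇑u := fun γ hγ => by
  rw [ModularForm.SL_slash]
  exact SlashInvariantFormClass.slash_action_eq u _ (Subgroup.mem_map_of_mem _ hγ)

/-- `F'` is a `σ`-conjugate of `F`: both have `q`-expansions, related by `σ` on coefficients. -/
structure SigConj (σ : ℂ ≃+* ℂ) (F F' : ℍ → ℂ) : Prop where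
  left : IsNice F
  right : IsNice F'
  qexp : qExpansion 1 F' = (qExpansion 1 F).map (σ : ℂ →+* ℂ)

theorem SigConj.add {σ : ℂ ≃+* ℂ} {F F' G G' : ℍ → ℂ} (hF : SigConj σ F F')
    (hG : SigConj σ G G') : SigConj σ (F + G) (F' + G') where
  left := hF.left.add hG.left
  right := hF.right.add hG.right
  qexp := by
    rw [hF.right.qExpansion_add hG.right, hF.left.qExpansion_add hG.left,
      map_add, hF.qexp, hG.qexp]

theorem SigConj.mul {σ : ℂ ≃+* ℂ} {F F' G G' : ℍ → ℂ} (hF : SigConj σ F F')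
    (hG : SigConj σ G G') : SigConj σ (F * G) (F' * G') where
  left := hF.left.mul hG.left
  right := hF.right.mul hG.right
  qexp := by
    rw [hF.right.qExpansion_mul hG.right, hF.left.qExpansion_mul hG.left,
      map_mul, hF.qexp, hG.qexp]

theorem SigConj.pow {σ : ℂ ≃+* ℂ} {F F' : ℍ → ℂ} (hF : SigConj σ F F') (n : ℕ) :
    SigConj σ (F ^ n) (F' ^ n) where
  left := hF.left.pow n
  right := hF.right.pow n
  qexp := by
    rw [hF.right.qExpansion_pow n, hF.left.qExpansion_pow n,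
      map_pow, hF.qexp]

theorem SigConj.sum {σ : ℂ ≃+* ℂ} {ι : Type*} (s : Finset ι) {F F' : ι → ℍ → ℂ}
    (h : ∀ i ∈ s, SigConj σ (F i) (F' i)) :
    SigConj σ (∑ i ∈ s, F i) (∑ i ∈ s, F' i) where
  left := IsNice.sum s fun i hi => (h i hi).left
  right := IsNice.sum s fun i hi => (h i hi).right
  qexp := by
    rw [IsNice.qExpansion_sum s fun i hi => (h i hi).right,
      IsNice.qExpansion_sum s fun i hi => (h i hi).left, map_sum]
    exact Finset.sum_congr rfl fun i hi => (h i hi).qexp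

theorem SigConj.natCast_smul {σ : ℂ ≃+* ℂ} {F F' : ℍ → ℂ} (hF : SigConj σ F F') (m : ℕ) :
    SigConj σ ((m : ℂ) • F) ((m : ℂ) • F') where
  left := hF.left.smul _
  right := hF.right.smul _
  qexp := by
    rw [hF.right.qExpansion_smul _, hF.left.qExpansion_smul _, hF.qexp]
    ext n
    simp

theorem SigConj.of_rat {σ : ℂ ≃+* ℂ} {F : ℍ → ℂ} (hF : IsNice F)
    (hrat : ∀ n : ℕ, ∃ r : ℚ, (qExpansion 1 F).coeff n = (r : ℂ)) : SigConj σ F F where
  left := hF
  right := hF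
  qexp := by
    ext n
    obtain ⟨r, hr⟩ := hrat n
    simp [hr]

theorem SigConj.eq_zero {σ : ℂ ≃+* ℂ} {F F' : ℍ → ℂ} (h : SigConj σ F F') (hF : F = 0) :
    F' = 0 := by
  apply h.right.eq_zero_of_qExpansion_eq_zero
  rw [h.qexp, hF]
  have : qExpansion 1 (0 : ℍ → ℂ) = 0 := by
    have := h.left.qExpansion_smul (0 : ℂ)
    simpa using this
  rw [this, map_zero]

theorem SigConj.ne_zero {σ : ℂ ≃+* ℂ} {F F' : ℍ → ℂ} (h : SigConj σ F F') (hF : F ≠ 0) :
    F' ≠ 0 := by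
  intro h0
  apply hF
  apply h.left.eq_zero_of_qExpansion_eq_zero
  have h1 : qExpansion 1 (0 : ℍ → ℂ) = 0 := by
    have := h.left.qExpansion_smul (0 : ℂ)
    simpa using this
  have h2 := h.qexp
  rw [h0, h1] at h2
  have hinj := PowerSeries.map_injective (σ : ℂ →+* ℂ) σ.injective
  exact hinj (by rw [← h2, map_zero])

theorem conj_q₀ {N : ℕ} {k : ℤ} {F : Type*} [FunLike F ℍ ℂ]
    [SlashInvariantFormClass F (Gamma0 N : Subgroup (GL (Fin 2) ℝ)) k] (f : F) :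
    conj f (q₀ N) = ⇑f := by
  unfold conj q₀
  rw [show ((1 : ↥𝒮ℒ) : ↥𝒮ℒ ⧸ ((Gamma0 N : Subgroup (GL (Fin 2) ℝ))).subgroupOf 𝒮ℒ) = ⟦(1 : ↥𝒮ℒ)⟧
    from rfl, SlashInvariantForm.quotientFunc_mk]
  simp

theorem mdiff_conj {N : ℕ} {k : ℤ} (u : ModularForm (Gamma0 N) k) (q : Q N) :
    MDiff (conj u q) := by
  induction q using Quotient.inductionOn with
  | _ h =>
    unfold conj
    rw [SlashInvariantForm.quotientFunc_mk]
    exact (ModularFormClass.holo u).slash k _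

theorem eq_zero_or_eq_zero_of_mdiff {F G : ℍ → ℂ} (hF : MDiff F) (hG : MDiff G)
    (h : F * G = 0) : F = 0 ∨ G = 0 := by
  have hopen : IsOpen {z : ℂ | 0 < z.im} := isOpen_lt continuous_const Complex.continuous_im
  have hF' := (UpperHalfPlane.mdifferentiable_iff.mp hF).analyticOnNhd hopen
  have hG' := (UpperHalfPlane.mdifferentiable_iff.mp hG).analyticOnNhd hopen
  have hconn : IsPreconnected {z : ℂ | 0 < z.im} :=
    (convex_halfSpace_im_gt 0).isPreconnected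
  have hmul : ∀ z ∈ {z : ℂ | 0 < z.im}, (F ∘ ofComplex) z * (G ∘ ofComplex) z = 0 := by
    intro z _
    exact congrFun h (ofComplex z)
  rcases hF'.eq_zero_or_eq_zero_of_mul_eq_zero hG' hmul hconn with h1 | h1
  · left
    funext z
    have := h1 (z : ℂ) z.im_pos
    simpa using this
  · right
    funext z
    have := h1 (z : ℂ) z.im_pos
    simpa using this

theorem exists_eq_zero_of_prod_eq_zero_of_mdiff {ι : Type} (s : Finset ι) (F : ι → ℍ → ℂ)
    (hF : ∀ i ∈ s, MDiff (F i)) (h : ∏ i ∈ s, F i = 0) : ∃ i ∈ s, F i = 0 := by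
  classical
  induction s using Finset.induction_on with
  | empty =>
    exfalso
    have := congrFun h UpperHalfPlane.I
    simp at this
  | insert a s ha ih =>
    rw [Finset.prod_insert ha] at h
    have hs : MDiff (∏ i ∈ s, F i) :=
      MDifferentiable.prod (fun i hi => hF i (Finset.mem_insert_of_mem hi))
    rcases eq_zero_or_eq_zero_of_mdiff (hF a (Finset.mem_insert_self a s)) hs h with h1 | h1
    · exact ⟨a, Finset.mem_insert_self a s, h1⟩
    · obtain ⟨i, hi, hi0⟩ := ih (fun i hi => hF i (Finset.mem_insert_of_mem hi)) h1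
      exact ⟨i, Finset.mem_insert_of_mem hi, hi0⟩

theorem charpoly_root {ι : Type} [Fintype ι] (V : ι → ℂ) (i₀ : ι) :
    V i₀ ^ Fintype.card ι + ∑ i ∈ Finset.range (Fintype.card ι),
      (∏ j, (X - C (V j))).coeff i * V i₀ ^ i = 0 := by
  classical
  set p : ℂ[X] := ∏ j, (X - C (V j)) with hp
  have hmonic : p.Monic := Polynomial.monic_prod_of_monic _ _ fun j _ => Polynomial.monic_X_sub_C _
  have hdeg : p.natDegree = Fintype.card ι := by
    rw [hp, Polynomial.natDegree_prod_of_monic _ _ fun j _ => Polynomial.monic_X_sub_C _]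
    simp
  have heval : p.eval (V i₀) = 0 := by
    rw [hp, Polynomial.eval_prod]
    exact Finset.prod_eq_zero (Finset.mem_univ i₀) (by simp)
  rw [Polynomial.eval_eq_sum_range, hdeg, Finset.sum_range_succ] at heval
  have hlead : p.coeff (Fintype.card ι) = 1 := by
    rw [← hdeg]; exact hmonic.coeff_natDegree
  rw [hlead, one_mul] at heval
  rw [add_comm]; exact heval

theorem xi_algebra (μ : ℕ) (f D R : ℂ) (c : ℕ → ℂ) (hR : R = f * D)
    (hroot : f ^ μ + ∑ i ∈ Finset.range μ, c i * f ^ i = 0) :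
    R ^ μ + ∑ i ∈ Finset.range μ, c i * R ^ i * D ^ (μ - i) = 0 := by
  have : R ^ μ + ∑ i ∈ Finset.range μ, c i * R ^ i * D ^ (μ - i)
      = D ^ μ * (f ^ μ + ∑ i ∈ Finset.range μ, c i * f ^ i) := by
    rw [mul_add, Finset.mul_sum, hR, mul_pow]
    congr 1
    · ring
    · refine Finset.sum_congr rfl fun i hi => ?_
      have hi' : i ≤ μ := (Finset.mem_range.mp hi).le
      have : D ^ μ = D ^ i * D ^ (μ - i) := by rw [← pow_add, Nat.add_sub_cancel' hi']
      rw [this, mul_pow]; ring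
  rw [this, hroot, mul_zero]

theorem exists_sigConj_levelOne (h1 : LevelOneGalois) (σ : ℂ ≃+* ℂ) {k : ℤ}
    (h : ModularForm 𝒮ℒ k) :
    ∃ F' : ℍ → ℂ, SigConj σ ⇑h F' ∧ SlInv ⊤ k F' ∧
      (IsZeroAtImInfty ⇑h → IsZeroAtImInfty F') := by
  obtain ⟨h', hh'⟩ := h1 σ k h
  refine ⟨⇑h', ⟨isNice_of_levelOne h, isNice_of_levelOne h', ?_⟩, slInv_of_levelOne h' ⊤, ?_⟩
  · ext n
    rw [hh' n, PowerSeries.coeff_map]
    rfl
  · intro hz
    rw [(isNice_of_levelOne h').isZeroAtImInfty_iff]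
    rw [(isNice_of_levelOne h).isZeroAtImInfty_iff] at hz
    rw [hh' 0, hz, map_zero]

theorem galoisStable_of (N : ℕ) [NeZero N] (h1 : LevelOneGalois) (h2 : PrimitiveExists N)
    (h3a : CharpolyForms N) (h3b : CharpolyCuspForms N) (h3c : TraceForms N)
    (h4 : LagrangeIdentity) (h5 : AnalyticCore N) : GaloisStable N := by
  intro σ f
  obtain ⟨u, hrat, hprim⟩ := h2
  obtain ⟨μ, hμ⟩ : ∃ μ : ℕ, μ = Fintype.card (Q N) := ⟨_, rfl⟩
  have hμpos : 0 < μ := hμ ▸ Fintype.card_pos_iff.mpr ⟨q₀ N⟩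
  -- the coefficient forms of the characteristic polynomial of `u` and their conjugates
  have hP : ∀ j : ℕ, ∃ P P' : ℍ → ℂ, j ≤ μ →
      (∀ z, P z = (∏ q : Q N, (X - C (conj u q z))).coeff j) ∧ SigConj σ P P' ∧
      SlInv ⊤ (12 * ((μ - j : ℕ) : ℤ)) P' := by
    intro j
    by_cases hj : j ≤ μ
    · obtain ⟨e, he⟩ := h3a 12 u j (hμ ▸ hj)
      obtain ⟨F', hF', hinv, -⟩ := exists_sigConj_levelOne h1 σ e
      exact ⟨⇑e, F', fun _ => ⟨he, hF', hμ ▸ hinv⟩⟩
    · exact ⟨0, 0, fun h => absurd h hj⟩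
  choose P P' hPP using hP
  -- the trace forms and their conjugates
  have hT : ∀ l : ℕ, ∃ T T' : ℍ → ℂ,
      (∀ z, T z = ∑ q : Q N, conj f q z * conj u q z ^ l) ∧ SigConj σ T T' ∧
      SlInv ⊤ (2 + 12 * (l : ℤ)) T' := by
    intro l
    obtain ⟨t, ht⟩ := h3c 2 12 f u l
    obtain ⟨F', hF', hinv, -⟩ := exists_sigConj_levelOne h1 σ t
    exact ⟨⇑t, F', ht, hF', hinv⟩
  choose T T' hTT using hT
  -- the coefficient forms of the characteristic polynomial of `f` and their conjugates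
  have hC : ∀ i : ℕ, ∃ Cc C' : ℍ → ℂ, i < μ →
      (∀ z, Cc z = (∏ q : Q N, (X - C (conj f q z))).coeff i) ∧ SigConj σ Cc C' ∧
      SlInv ⊤ (2 * ((μ - i : ℕ) : ℤ)) C' ∧ IsZeroAtImInfty C' := by
    intro i
    by_cases hi : i < μ
    · obtain ⟨e, he0, he⟩ := h3b 2 f i (hμ ▸ hi)
      obtain ⟨F', hF', hinv, hz⟩ := exists_sigConj_levelOne h1 σ e
      exact ⟨⇑e, F', fun _ => ⟨he, hF', hμ ▸ hinv, hz he0⟩⟩
    · exact ⟨0, 0, fun h => absurd h hi⟩
  choose Cc C' hCC using hC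
  have hu : SigConj σ ⇑u ⇑u := SigConj.of_rat (isNice_of_Gamma0 u) hrat
  have hf : IsNice ⇑f := isNice_of_cusp_Gamma0 f
  -- the discriminant-like denominator and the numerator
  obtain ⟨D₀, hD₀⟩ : ∃ D₀ : ℍ → ℂ,
      D₀ = ∑ m ∈ Finset.range (μ + 1), (m : ℂ) • (P m * ⇑u ^ (m - 1)) := ⟨_, rfl⟩
  obtain ⟨D, hD⟩ : ∃ D : ℍ → ℂ,
      D = ∑ m ∈ Finset.range (μ + 1), (m : ℂ) • (P' m * ⇑u ^ (m - 1)) := ⟨_, rfl⟩
  obtain ⟨R₀, hR₀⟩ : ∃ R₀ : ℍ → ℂ,
      R₀ = ∑ m ∈ Finset.range μ, ∑ l ∈ Finset.range (μ - m),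
        P (m + 1 + l) * T l * ⇑u ^ m := ⟨_, rfl⟩
  obtain ⟨G, hG⟩ : ∃ G : ℍ → ℂ,
      G = ∑ m ∈ Finset.range μ, ∑ l ∈ Finset.range (μ - m),
        P' (m + 1 + l) * T' l * ⇑u ^ m := ⟨_, rfl⟩
  have hDD : SigConj σ D₀ D := by
    rw [hD₀, hD]
    refine SigConj.sum _ fun m hm => ?_
    have hm' : m ≤ μ := Nat.lt_succ_iff.mp (Finset.mem_range.mp hm)
    exact ((hPP m hm').2.1.mul (hu.pow _)).natCast_smul m
  have hRG : SigConj σ R₀ G := by
    rw [hR₀, hG]
    refine SigConj.sum _ fun m hm => SigConj.sum _ fun l hl => ?_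
    have hm' : m < μ := Finset.mem_range.mp hm
    have hl' : l < μ - m := Finset.mem_range.mp hl
    exact ((hPP (m + 1 + l) (by omega)).2.1.mul (hTT l).2.1).mul (hu.pow m)
  -- pointwise identities
  have hD₀z : ∀ z, D₀ z = ∏ q ∈ Finset.univ.erase (q₀ N), (u z - conj u q z) := by
    intro z
    have key := (h4 (Q N) (fun q => conj u q z) (fun q => conj f q z) (q₀ N)).2
    simp only [conj_q₀] at key
    rw [← key, hD₀, ← hμ]
    simp only [Finset.sum_apply, Pi.smul_apply, Pi.mul_apply, Pi.pow_apply, smul_eq_mul]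
    refine Finset.sum_congr rfl fun m hm => ?_
    have hm' : m ≤ μ := Nat.lt_succ_iff.mp (Finset.mem_range.mp hm)
    rw [(hPP m hm').1 z, mul_assoc]
  have hR₀z : R₀ = ⇑f * D₀ := by
    funext z
    have key := (h4 (Q N) (fun q => conj u q z) (fun q => conj f q z) (q₀ N)).1
    simp only [conj_q₀] at key
    rw [Pi.mul_apply, hD₀z z, ← key, hR₀, ← hμ]
    simp only [Finset.sum_apply, Pi.mul_apply, Pi.pow_apply]
    refine Finset.sum_congr rfl fun m hm => Finset.sum_congr rfl fun l hl => ?_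
    have hm' : m < μ := Finset.mem_range.mp hm
    have hl' : l < μ - m := Finset.mem_range.mp hl
    rw [(hPP (m + 1 + l) (by omega)).1 z, (hTT l).1 z]
  have hD₀ne : D₀ ≠ 0 := by
    intro h0
    have hprod : ∏ q ∈ Finset.univ.erase (q₀ N), (⇑u - conj u q) = 0 := by
      funext z
      rw [Finset.prod_apply]
      simp only [Pi.sub_apply]
      rw [← hD₀z z, h0]
    obtain ⟨q, hq, hq0⟩ := exists_eq_zero_of_prod_eq_zero_of_mdiff _ _
      (fun q _ => (ModularFormClass.holo u).sub (mdiff_conj u q)) hprod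
    exact hprim q (Finset.ne_of_mem_erase hq) (sub_eq_zero.mp hq0).symm
  have hDne : D ≠ 0 := hDD.ne_zero hD₀ne
  have hroot : ∀ z, f z ^ μ + ∑ i ∈ Finset.range μ, Cc i z * f z ^ i = 0 := by
    intro z
    have key := charpoly_root (fun q => conj f q z) (q₀ N)
    simp only [conj_q₀] at key
    rw [← hμ] at key
    rw [← key]
    congr 1
    refine Finset.sum_congr rfl fun i hi => ?_
    rw [(hCC i (Finset.mem_range.mp hi)).1 z]
  -- the polynomial relation and its conjugate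
  obtain ⟨Ξ₀, hΞ₀⟩ : ∃ Ξ₀ : ℍ → ℂ,
      Ξ₀ = R₀ ^ μ + ∑ i ∈ Finset.range μ, Cc i * R₀ ^ i * D₀ ^ (μ - i) := ⟨_, rfl⟩
  obtain ⟨Ξ, hΞ⟩ : ∃ Ξ : ℍ → ℂ,
      Ξ = G ^ μ + ∑ i ∈ Finset.range μ, C' i * G ^ i * D ^ (μ - i) := ⟨_, rfl⟩
  have hΞΞ : SigConj σ Ξ₀ Ξ := by
    rw [hΞ₀, hΞ]
    refine (hRG.pow μ).add (SigConj.sum _ fun i hi => ?_)
    exact ((hCC i (Finset.mem_range.mp hi)).2.1.mul (hRG.pow i)).mul (hDD.pow _)
  have hΞ₀0 : Ξ₀ = 0 := by
    funext z
    rw [hΞ₀]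
    simp only [Pi.add_apply, Finset.sum_apply, Pi.mul_apply, Pi.pow_apply, Pi.zero_apply]
    exact xi_algebra μ (f z) (D₀ z) (R₀ z) (fun i => Cc i z) (congrFun hR₀z z) (hroot z)
  have hΞ0 : Ξ = 0 := hΞΞ.eq_zero hΞ₀0
  -- invariance properties
  have hGinv : SlInv (Gamma0 N) (12 * ((μ : ℤ) - 1) + 2) G := by
    rw [hG]
    refine SlInv.sum _ fun m hm => SlInv.sum _ fun l hl => ?_
    have hm' : m < μ := Finset.mem_range.mp hm
    have hl' : l < μ - m := Finset.mem_range.mp hl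
    have hle : m + 1 + l ≤ μ := by omega
    refine ((((hPP (m + 1 + l) hle).2.2.mono le_top).mul ((hTT l).2.2.mono le_top)).mul
      ((slInv_of_Gamma0 u).pow m)).weight_congr ?_
    rw [Nat.cast_sub hle]
    push_cast
    ring
  have hDinv : SlInv (Gamma0 N) (12 * ((μ : ℤ) - 1)) D := by
    rw [hD]
    refine SlInv.sum _ fun m hm => ?_
    have hm' : m ≤ μ := Nat.lt_succ_iff.mp (Finset.mem_range.mp hm)
    rcases Nat.eq_zero_or_pos m with rfl | hmpos
    · simpa using slInv_zero (Gamma0 N) _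
    · refine SlInv.smul _ ((((hPP m hm').2.2.mono le_top).mul
        ((slInv_of_Gamma0 u).pow (m - 1))).weight_congr ?_)
      rw [Nat.cast_sub hm', Nat.cast_sub hmpos]
      push_cast
      ring
  -- the analytic core
  obtain ⟨g, hg⟩ := h5 μ (12 * ((μ : ℤ) - 1)) G D C' hμpos hRG.right.mdiff hDD.right.mdiff
    (fun i hi => (hCC i hi).2.1.right.mdiff) hGinv hDinv
    (fun i hi γ => (hCC i hi).2.2.1 γ (Subgroup.mem_top γ))
    (fun i hi => (hCC i hi).2.2.2) hDne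
    (fun z => by
      have := congrFun hΞ0 z
      rw [hΞ] at this
      simpa only [Pi.add_apply, Finset.sum_apply, Pi.mul_apply, Pi.pow_apply, Pi.zero_apply]
        using this)
  refine ⟨g, fun n => ?_⟩
  have hgD : ⇑g * D = G := funext hg
  have hgn : IsNice ⇑g := isNice_of_cusp_Gamma0 g
  have e1 : qExpansion 1 ⇑g * qExpansion 1 D = qExpansion 1 G := by
    rw [← hgn.qExpansion_mul hDD.right, hgD]
  have e2 : qExpansion 1 G
      = (qExpansion 1 ⇑f).map (σ : ℂ →+* ℂ) * qExpansion 1 D := by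
    rw [hRG.qexp, hR₀z, hf.qExpansion_mul hDD.left, map_mul, hDD.qexp]
  have hEDne : qExpansion 1 D ≠ 0 := fun h0 =>
    hDne (hDD.right.eq_zero_of_qExpansion_eq_zero h0)
  have e3 : qExpansion 1 ⇑g = (qExpansion 1 ⇑f).map (σ : ℂ →+* ℂ) :=
    mul_right_cancel₀ hEDne (e1.trans e2)
  unfold ModularFormClass.qCoeff
  rw [e3, PowerSeries.coeff_map]
  rfl

end Fermat.Agent.S23.H30
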