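import Mathlib

set_option autoImplicit false

namespace Fermat.Agent.S23.H11

open MvPolynomial

/-- Any ring automorphism of a field `K` extends to a ring automorphism of an algebraically
closed field `L` containing it. -/
theorem exists_ringEquiv_extending {K L : Type*} [Field K] [Field L] [Algebra K L] [IsAlgClosed L]
    (f : K ≃+* K) : ∃ σ : L ≃+* L, ∀ c : K, σ (algebraMap K L c) = algebraMap K L (f c) := by
  obtain ⟨ι, v, hv⟩ := exists_isTranscendenceBasis' K L
  let := IsAlgClosed.isAlgClosure_of_transcendence_basis v hv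
  let e : Algebra.adjoin K (Set.range v) ≃+* Algebra.adjoin K (Set.range v) :=
    (hv.1.aevalEquiv.symm.toRingEquiv.trans (MvPolynomial.mapEquiv ι f)).trans
      hv.1.aevalEquiv.toRingEquiv
  refine ⟨IsAlgClosure.equivOfEquiv L L e, fun c => ?_⟩
  have h1 : algebraMap K L c =
      algebraMap (Algebra.adjoin K (Set.range v)) L (algebraMap K _ c) := rfl
  have h2 : algebraMap K L (f c) =
      algebraMap (Algebra.adjoin K (Set.range v)) L (algebraMap K _ (f c)) := rfl
  rw [h1, IsAlgClosure.equivOfEquiv_algebraMap, h2]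
  congr 1
  have h3 : hv.1.aevalEquiv.symm (algebraMap K _ c) = C c := by
    rw [AlgEquiv.symm_apply_eq]
    exact (AlgEquiv.commutes hv.1.aevalEquiv c).symm
  simp only [e, RingEquiv.trans_apply, AlgEquiv.coe_ringEquiv, h3]
  rw [MvPolynomial.mapEquiv_apply, MvPolynomial.map_C]
  exact AlgEquiv.commutes hv.1.aevalEquiv (f c)


/-- A transcendental complex number is moved by some ring automorphism. -/
theorem exists_ringEquiv_ne_of_transcendental {L : Type*} [Field L] [Algebra ℚ L] [IsAlgClosed L]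
    (x : L) (hx : Transcendental ℚ x) : ∃ σ : L ≃+* L, σ x ≠ x := by
  classical
  have hs : AlgebraicIndepOn ℚ id ({x} : Set L) := by
    have : Subsingleton ({x} : Set L) := inferInstance
    rw [AlgebraicIndepOn, algebraicIndependent_singleton_iff ⟨x, rfl⟩]
    exact hx
  obtain ⟨t, hxt, hv⟩ := exists_isTranscendenceBasis_superset hs
  let i₀ : t := ⟨x, hxt rfl⟩
  let := IsAlgClosed.isAlgClosure_of_transcendence_basis ((↑) : t → L) hv
  let sh (a : ℚ) : MvPolynomial t ℚ →ₐ[ℚ] MvPolynomial t ℚ :=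
    aeval (fun i => X i + C (if i = i₀ then a else 0))
  have hsh (a b : ℚ) (hab : a + b = 0) : (sh a).comp (sh b) = AlgHom.id ℚ _ := by
    apply MvPolynomial.algHom_ext
    intro i
    simp only [sh, AlgHom.comp_apply, aeval_X, map_add, AlgHom.id_apply, aeval_C,
      algebraMap_eq]
    rw [add_assoc, ← C_add]
    by_cases h : i = i₀
    · simp [h, hab]
    · simp [h]
  let shE : MvPolynomial t ℚ ≃ₐ[ℚ] MvPolynomial t ℚ :=
    AlgEquiv.ofAlgHom (sh 1) (sh (-1)) (hsh 1 (-1) (by norm_num)) (hsh (-1) 1 (by norm_num))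
  let e : Algebra.adjoin ℚ (Set.range ((↑) : t → L)) ≃ₐ[ℚ]
      Algebra.adjoin ℚ (Set.range ((↑) : t → L)) :=
    (hv.1.aevalEquiv.symm.trans shE).trans hv.1.aevalEquiv
  refine ⟨IsAlgClosure.equivOfEquiv L L e.toRingEquiv, ?_⟩
  have hxA : x ∈ Algebra.adjoin ℚ (Set.range ((↑) : t → L)) :=
    Algebra.subset_adjoin ⟨i₀, rfl⟩
  have h1 : x = algebraMap (Algebra.adjoin ℚ (Set.range ((↑) : t → L))) L ⟨x, hxA⟩ := rfl
  have h3 : hv.1.aevalEquiv (X i₀) = ⟨x, hxA⟩ := by
    apply Subtype.ext
    rw [AlgebraicIndependent.aevalEquiv_apply_coe]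
    simp [i₀]
  have h4 : e ⟨x, hxA⟩ = ⟨x + 1, add_mem hxA (one_mem _)⟩ := by
    apply Subtype.ext
    rw [← h3]
    simp only [e, AlgEquiv.trans_apply, AlgEquiv.symm_apply_apply]
    rw [AlgebraicIndependent.aevalEquiv_apply_coe]
    simp [shE, sh, i₀]
  intro hcontra
  rw [h1] at hcontra
  have := IsAlgClosure.equivOfEquiv_algebraMap (L := L) (M := L) e.toRingEquiv ⟨x, hxA⟩
  rw [this] at hcontra
  have h5 : e.toRingEquiv ⟨x, hxA⟩ = e ⟨x, hxA⟩ := rfl
  rw [h5, h4] at hcontra
  have h6 : x + 1 = x := hcontra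
  simp at h6

/-- The fixed field of the full automorphism group of an algebraically closed field of
characteristic zero is `ℚ`. -/
theorem exists_rat_of_forall_ringEquiv_fixed {L : Type*} [Field L] [CharZero L] [IsAlgClosed L]
    (x : L) (h : ∀ σ : L ≃+* L, σ x = x) : ∃ r : ℚ, x = (r : L) := by
  have halg : IsAlgebraic ℚ x := by
    by_contra htr
    obtain ⟨σ, hσ⟩ := exists_ringEquiv_ne_of_transcendental x htr
    exact hσ (h σ)
  let Qb : IntermediateField ℚ L := algebraicClosure ℚ L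
  have hxQb : x ∈ Qb := (mem_algebraicClosure_iff').mpr halg.isIntegral
  have hcl : IsAlgClosure ℚ Qb := algebraicClosure.isAlgClosure ℚ L
  have hnorm : Normal ℚ Qb := IsAlgClosure.normal ℚ Qb
  have hsep : Algebra.IsSeparable ℚ Qb := Algebra.IsAlgebraic.isSeparable_of_perfectField
  have : IsGalois ℚ Qb := isGalois_iff.mpr ⟨hsep, hnorm⟩
  have hfix : ∀ f : Qb ≃ₐ[ℚ] Qb, f ⟨x, hxQb⟩ = ⟨x, hxQb⟩ := by
    intro f
    obtain ⟨σ, hσ⟩ := exists_ringEquiv_extending (K := Qb) (L := L) f.toRingEquiv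
    have h1 := hσ ⟨x, hxQb⟩
    have h2 : algebraMap Qb L ⟨x, hxQb⟩ = x := rfl
    rw [h2, h σ] at h1
    apply Subtype.ext
    exact h1.symm
  obtain ⟨r, hr⟩ := (InfiniteGalois.mem_range_algebraMap_iff_fixed (k := ℚ) (K := Qb) ⟨x, hxQb⟩).mpr hfix
  refine ⟨r, ?_⟩
  have := congrArg (algebraMap Qb L) hr
  rw [← IsScalarTower.algebraMap_apply] at this
  simpa using this.symm

theorem exists_rat_of_forall_ringAut_fixed (x : ℂ) (h : ∀ σ : ℂ ≃+* ℂ, σ x = x) :
    ∃ r : ℚ, x = (r : ℂ) :=
  exists_rat_of_forall_ringEquiv_fixed x h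

/-- Galois descent for a finite dimensional complex vector space `M` with a jointly injective
family of coordinate functionals: if the set of coordinate vectors is stable under every ring
automorphism of `ℂ`, then `M` is spanned by vectors with rational coordinates. -/
theorem span_rational_of_ringAut_stable {ι M : Type*} [AddCommGroup M] [Module ℂ M]
    [FiniteDimensional ℂ M] (c : ι → M →ₗ[ℂ] ℂ)
    (hinj : ∀ m : M, (∀ i, c i m = 0) → m = 0)
    (hσ : ∀ σ : ℂ ≃+* ℂ, ∀ m : M, ∃ m' : M, ∀ i, c i m' = σ (c i m)) :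
    Submodule.span ℂ {m : M | ∀ i, ∃ r : ℚ, c i m = (r : ℂ)} = ⊤ := by
  classical
  -- the coordinate functionals span the dual
  have hW : Submodule.span ℂ (Set.range c) = (⊤ : Submodule ℂ (Module.Dual ℂ M)) := by
    have h1 : (Submodule.span ℂ (Set.range c)).dualCoannihilator = ⊥ := by
      rw [eq_bot_iff]
      intro m hm
      rw [Submodule.mem_dualCoannihilator] at hm
      exact (Submodule.mem_bot ℂ).mpr (hinj m fun i => hm (c i) (Submodule.subset_span ⟨i, rfl⟩))
    have h2 := Subspace.dualCoannihilator_dualAnnihilator_eq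
      (W := Submodule.span ℂ (Set.range c))
    rw [h1, Submodule.dualAnnihilator_bot] at h2
    exact h2.symm
  obtain ⟨b, hb, hspan, hli⟩ := exists_linearIndependent ℂ (Set.range c)
  rw [hW] at hspan
  let B : Module.Basis b ℂ (Module.Dual ℂ M) :=
    Module.Basis.mk hli (by rw [Subtype.range_coe_subtype, Set.ofPred_mem_eq, hspan])
  have hBk : ∀ k : b, B k = (k : Module.Dual ℂ M) := fun k => by simp [B]
  have : Finite b := Module.Finite.finite_basis B
  let _ : Fintype b := Fintype.ofFinite b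
  let w : b → M := fun j => (Module.evalEquiv ℂ M).symm (B.dualBasis j)
  have hw : ∀ (φ : Module.Dual ℂ M) (j : b), φ (w j) = B.dualBasis j φ := by
    intro φ j
    have : Module.evalEquiv ℂ M (w j) = B.dualBasis j := LinearEquiv.apply_symm_apply _ _
    rw [← this]
    rfl
  have hwB : ∀ k j : b, B k (w j) = if k = j then 1 else 0 := by
    intro k j
    rw [hw, Module.Basis.dualBasis_apply_self]
  -- vanishing of all `B k` forces zero
  have hzero : ∀ m : M, (∀ k : b, B k m = 0) → m = 0 := by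
    intro m hm
    apply hinj
    intro i
    have key : ∀ φ ∈ Submodule.span ℂ (Set.range B), φ m = 0 := by
      intro φ hφ
      induction hφ using Submodule.span_induction with
      | mem x hx => obtain ⟨k, rfl⟩ := hx; exact hm k
      | zero => rfl
      | add x y _ _ hx hy => rw [LinearMap.add_apply, hx, hy, add_zero]
      | smul a x _ hx => rw [LinearMap.smul_apply, hx, smul_zero]
    exact key (c i) (by rw [B.span_eq]; trivial)
  -- the `w j` span
  have hwspan : Submodule.span ℂ (Set.range w) = ⊤ := by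
    have h1 := (B.dualBasis.map (Module.evalEquiv ℂ M).symm).span_eq
    have h2 : w = ⇑(B.dualBasis.map (Module.evalEquiv ℂ M).symm) := by
      funext j
      rw [Module.Basis.map_apply]
    rw [h2]
    exact h1
  -- each `w j` has rational coordinates
  have hrat : ∀ j : b, ∀ i, ∃ r : ℚ, c i (w j) = (r : ℂ) := by
    intro j i
    apply exists_rat_of_forall_ringAut_fixed
    intro σ
    obtain ⟨m', hm'⟩ := hσ σ (w j)
    have hm'eq : m' = w j := by
      rw [← sub_eq_zero]
      apply hzero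
      intro k
      obtain ⟨ik, hik⟩ := hb k.2
      rw [map_sub, hBk k, ← hik, hm' ik, hik, ← hBk k, hwB]
      split_ifs <;> simp
    rw [← hm' i, hm'eq]
  rw [eq_top_iff, ← hwspan]
  apply Submodule.span_mono
  rintro _ ⟨j, rfl⟩
  exact hrat j

/-- A finite set of rational complex numbers has a common denominator. -/
theorem exists_common_den (S : Finset ℂ) (hS : ∀ s ∈ S, ∃ r : ℚ, s = (r : ℂ)) :
    ∃ D : ℕ, D ≠ 0 ∧ ∀ s ∈ S, ∃ m : ℤ, (D : ℂ) * s = (m : ℂ) := by
  classical
  induction S using Finset.induction_on with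
  | empty => exact ⟨1, one_ne_zero, by simp⟩
  | insert a S ha ih =>
    obtain ⟨D, hD0, hD⟩ := ih fun s hs => hS s (Finset.mem_insert_of_mem hs)
    obtain ⟨r, rfl⟩ := hS a (Finset.mem_insert_self a S)
    refine ⟨D * r.den, Nat.mul_ne_zero hD0 r.den_ne_zero, ?_⟩
    intro s hs
    rcases Finset.mem_insert.mp hs with rfl | hs
    · refine ⟨D * r.num, ?_⟩
      have h1 : ((r.den : ℚ) : ℂ) * (r : ℂ) = ((r.num : ℚ) : ℂ) := by
        rw [← Rat.cast_mul, Rat.den_mul_eq_num]
      push_cast at h1 ⊢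
      rw [mul_assoc, h1]
    · obtain ⟨m, hm⟩ := hD s hs
      refine ⟨r.den * m, ?_⟩
      push_cast
      rw [mul_comm (D : ℂ), mul_assoc, hm]

/-- Bounded denominators: a family of rational numbers all lying in a finitely generated
subgroup of `ℂ` has a common denominator. -/
theorem exists_nat_mul_eq_int_of_fg {ι : Type*} {A : AddSubgroup ℂ} (hA : A.FG) (a : ι → ℂ)
    (ha : ∀ n, a n ∈ A) (hq : ∀ n, ∃ r : ℚ, a n = (r : ℂ)) :
    ∃ D : ℕ, D ≠ 0 ∧ ∀ n, ∃ m : ℤ, (D : ℂ) * a n = (m : ℂ) := by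
  classical
  let Q : Submodule ℤ ℂ := LinearMap.range ((Rat.castHom ℂ).toAddMonoidHom.toIntLinearMap)
  let N : Submodule ℤ ℂ := A.toIntSubmodule ⊓ Q
  have hAfg : (A.toIntSubmodule).FG := by
    rw [Submodule.fg_iff_addSubgroup_fg, AddSubgroup.toIntSubmodule_toAddSubgroup]
    exact hA
  have hnoeth : IsNoetherian ℤ A.toIntSubmodule := isNoetherian_of_fg_of_noetherian _ hAfg
  have hNfg : N.FG := by
    have h1 : (N.comap A.toIntSubmodule.subtype).FG := IsNoetherian.noetherian _
    have h2 := h1.map A.toIntSubmodule.subtype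
    rwa [Submodule.map_comap_subtype, inf_eq_right.mpr inf_le_left] at h2
  obtain ⟨S, hS⟩ := hNfg
  have hSrat : ∀ s ∈ S, ∃ r : ℚ, s = (r : ℂ) := by
    intro s hs
    have : s ∈ N := hS ▸ Submodule.subset_span hs
    obtain ⟨r, hr⟩ := this.2
    exact ⟨r, hr.symm⟩
  obtain ⟨D, hD0, hD⟩ := exists_common_den S hSrat
  refine ⟨D, hD0, fun n => ?_⟩
  have hn : a n ∈ N := by
    refine ⟨ha n, ?_⟩
    obtain ⟨r, hr⟩ := hq n
    exact ⟨r, hr.symm⟩
  rw [← hS] at hn
  have key : ∀ x ∈ Submodule.span ℤ (S : Set ℂ), ∃ m : ℤ, (D : ℂ) * x = (m : ℂ) := by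
    intro x hx
    induction hx using Submodule.span_induction with
    | mem x hx => exact hD x hx
    | zero => exact ⟨0, by simp⟩
    | add x y _ _ hx hy =>
      obtain ⟨m1, h1⟩ := hx
      obtain ⟨m2, h2⟩ := hy
      exact ⟨m1 + m2, by push_cast; rw [mul_add, h1, h2]⟩
    | smul c x _ hx =>
      obtain ⟨m1, h1⟩ := hx
      exact ⟨c * m1, by push_cast; rw [zsmul_eq_mul, mul_left_comm, h1]⟩
  exact key _ hn

/-- Assembly lemma: Galois stability plus bounded denominators give an integral structure.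
Let `M` be a finite dimensional complex vector space with a jointly injective family of coordinate
functionals `c i`. If the coordinate vectors are stable under all ring automorphisms of `ℂ`, and
the coordinates of every vector lie in a finitely generated subgroup of `ℂ`, then `M` is spanned
by the vectors all of whose coordinates are integers. -/
theorem span_integral_of_ringAut_stable_of_fg {ι M : Type*} [AddCommGroup M] [Module ℂ M]
    [FiniteDimensional ℂ M] (c : ι → M →ₗ[ℂ] ℂ)
    (hinj : ∀ m : M, (∀ i, c i m = 0) → m = 0)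
    (hσ : ∀ σ : ℂ ≃+* ℂ, ∀ m : M, ∃ m' : M, ∀ i, c i m' = σ (c i m))
    (hfg : ∀ m : M, ∃ A : AddSubgroup ℂ, A.FG ∧ ∀ i, c i m ∈ A) :
    Submodule.span ℂ {m : M | ∀ i, ∃ z : ℤ, c i m = (z : ℂ)} = ⊤ := by
  rw [eq_top_iff, ← span_rational_of_ringAut_stable c hinj hσ]
  apply Submodule.span_le.mpr
  intro m hm
  obtain ⟨A, hA, hmA⟩ := hfg m
  obtain ⟨D, hD0, hD⟩ := exists_nat_mul_eq_int_of_fg hA (fun i => c i m) hmA hm
  have hDm : (D : ℂ) • m ∈ {m : M | ∀ i, ∃ z : ℤ, c i m = (z : ℂ)} := by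
    intro i
    obtain ⟨z, hz⟩ := hD i
    exact ⟨z, by rw [map_smul, smul_eq_mul, hz]⟩
  have hne : (D : ℂ) ≠ 0 := Nat.cast_ne_zero.mpr hD0
  have : m = (D : ℂ)⁻¹ • ((D : ℂ) • m) := by rw [smul_smul, inv_mul_cancel₀ hne, one_smul]
  rw [this]
  exact Submodule.smul_mem _ _ (Submodule.subset_span hDm)

end Fermat.Agent.S23.H11
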