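import Mathlib
import Fermat.Prelude.Def_CuspForm_IntegralStructure
import Fermat.Prelude.Def_CuspForm_HeckeAlgebra
import Fermat.Prelude.Thm_CongruenceSubgroup_one_mem_strictPeriods_Gamma0
import Fermat.Prelude.Thm_ModularForm_sturm_bound_Gamma0
import Fermat.Prelude.Thm_ModularFormClass_qCoeff_heckeT
import Fermat.Prelude.Thm_ModularFormClass_qCoeff_heckeU

set_option autoImplicit false

namespace Fermat.Agent.S23.H20

open UpperHalfPlane ModularFormClass CongruenceSubgroup
open scoped MatrixGroups ModularForm Manifold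

variable {N : ℕ} {k : ℤ}

theorem one_mem_periods (N : ℕ) :
    (1 : ℝ) ∈ (Subgroup.map (Matrix.SpecialLinearGroup.mapGL ℝ) (Gamma0 N)).strictPeriods :=
  CongruenceSubgroup.one_mem_strictPeriods_Gamma0 N

theorem qCoeff_add (f g : CuspForm (Gamma0 N) k) (n : ℕ) :
    qCoeff ⇑(f + g) n = qCoeff ⇑f n + qCoeff ⇑g n := by
  simp only [qCoeff, FunLike.coe_add]
  rw [ModularForm.qExpansion_add one_pos (one_mem_periods N) f g, map_add]

theorem qCoeff_smul (c : ℂ) (f : CuspForm (Gamma0 N) k) (n : ℕ) :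
    qCoeff ⇑(c • f) n = c * qCoeff ⇑f n := by
  have h1 : ⇑(c • f) = c • ⇑f := by
    ext z
    simp
  simp only [qCoeff, h1]
  rw [ModularForm.qExpansion_smul one_pos (one_mem_periods N) c f]
  simp

theorem qCoeff_zero_form (n : ℕ) : qCoeff ⇑(0 : CuspForm (Gamma0 N) k) n = 0 := by
  simp only [qCoeff, FunLike.coe_zero]
  rw [UpperHalfPlane.qExpansion_zero, map_zero]

/-- The `n`-th `q`-expansion coefficient as a `ℂ`-linear functional on cusp forms. -/
noncomputable def qCoeffLin (N : ℕ) (k : ℤ) (n : ℕ) : CuspForm (Gamma0 N) k →ₗ[ℂ] ℂ where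
  toFun f := qCoeff ⇑f n
  map_add' f g := qCoeff_add f g n
  map_smul' c f := by
    simp only [RingHom.id_apply, smul_eq_mul]
    exact qCoeff_smul c f n

@[simp] theorem qCoeffLin_apply (n : ℕ) (f : CuspForm (Gamma0 N) k) :
    qCoeffLin N k n f = qCoeff ⇑f n := rfl

theorem qCoeff_zero_index (f : CuspForm (Gamma0 N) k) : qCoeff ⇑f 0 = 0 := by
  simp only [qCoeff]
  exact CuspFormClass.qExpansion_coeff_zero f one_pos (one_mem_periods N)

theorem qCoeff_heckeTLin {p : ℕ} (hp : p.Prime) (hpN : ¬ p ∣ N) (f : CuspForm (Gamma0 N) k)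
    (n : ℕ) :
    qCoeff ⇑(CuspForm.heckeTLin k hp hpN f) n =
      qCoeff ⇑f (n * p) + if p ∣ n then (p : ℂ) ^ (k - 1) * qCoeff ⇑f (n / p) else 0 := by
  rw [CuspForm.coe_heckeTLin_apply, ModularFormClass.qCoeff_heckeT f (one_mem_periods N) hp.ne_zero n,
    ModularForm.coeffHeckeT_apply]

theorem qCoeff_heckeULin [NeZero N] {p : ℕ} (hpN : p ∣ N) (hp : p ≠ 0)
    (f : CuspForm (Gamma0 N) k) (n : ℕ) :
    qCoeff ⇑(CuspForm.heckeULin k hpN f) n = qCoeff ⇑f (n * p) := by
  rw [CuspForm.coe_heckeULin_apply, ModularFormClass.qCoeff_heckeU f (one_mem_periods N) hp n,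
    ModularForm.coeffHeckeU_apply]

/-- For every `n ≥ 1` there is an element `t` of the integral Hecke algebra with
`a₁(t f) = aₙ(f)` for all weight two cusp forms `f`. -/
theorem exists_hecke_coeff (N : ℕ) [NeZero N] (n : ℕ) (hn : 0 < n) :
    ∃ t ∈ CuspForm.heckeAlgebra N 2 ∅, ∀ f : CuspForm (Gamma0 N) 2,
      qCoeff ⇑(t f) 1 = qCoeff ⇑f n := by
  induction n using Nat.strong_induction_on with
  | _ n ih =>
    rcases Nat.lt_or_ge n 2 with h2 | h2
    · have h1 : n = 1 := by omega
      subst h1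
      exact ⟨1, Subalgebra.one_mem _, fun f => rfl⟩
    · have hn1 : n ≠ 1 := by omega
      have hp : (n.minFac).Prime := Nat.minFac_prime hn1
      set p := n.minFac with hpdef
      obtain ⟨m, hm⟩ : p ∣ n := Nat.minFac_dvd n
      have hmpos : 0 < m := by
        rcases Nat.eq_zero_or_pos m with h0 | h0
        · subst h0; omega
        · exact h0
      have hmlt : m < n := by
        rw [hm]
        have := hp.two_le
        nlinarith
      have hnm : n = m * p := by rw [hm, mul_comm]
      obtain ⟨tm, htm, htm'⟩ := ih m hmlt hmpos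
      by_cases hpN : p ∣ N
      · refine ⟨tm * CuspForm.heckeULin 2 hpN, Subalgebra.mul_mem _ htm
          (CuspForm.heckeULin_mem_heckeAlgebra hp hpN (Set.notMem_empty p)), fun f => ?_⟩
        rw [Module.End.mul_apply, htm', qCoeff_heckeULin hpN hp.ne_zero, ← hnm]
      · have hT := CuspForm.heckeTLin_mem_heckeAlgebra (k := 2) hp hpN (Set.notMem_empty p)
        by_cases hpm : p ∣ m
        · obtain ⟨m', hm'⟩ := hpm
          have hm'pos : 0 < m' := by
            rcases Nat.eq_zero_or_pos m' with h0 | h0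
            · subst h0; omega
            · exact h0
          have hm'lt : m' < n := by
            have := hp.two_le
            nlinarith
          obtain ⟨tm', htm'mem, htm'spec⟩ := ih m' hm'lt hm'pos
          refine ⟨tm * CuspForm.heckeTLin 2 hp hpN - (p : ℤ) • tm',
            Subalgebra.sub_mem _ (Subalgebra.mul_mem _ htm hT)
              (Subalgebra.zsmul_mem _ htm'mem _), fun f => ?_⟩
          have hdiv : m / p = m' := by
            rw [hm', Nat.mul_div_cancel_left _ hp.pos]
          have e1 : qCoeff ⇑((tm * CuspForm.heckeTLin 2 hp hpN - (p : ℤ) • tm') f) 1 =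
              qCoeff ⇑(tm (CuspForm.heckeTLin 2 hp hpN f)) 1 - (p : ℂ) * qCoeff ⇑(tm' f) 1 := by
            have := (qCoeffLin N 2 1).map_sub (tm (CuspForm.heckeTLin 2 hp hpN f))
              ((p : ℤ) • tm' f)
            have h3 : qCoeffLin N 2 1 ((p : ℤ) • tm' f) = (p : ℂ) * qCoeff ⇑(tm' f) 1 := by
              rw [map_zsmul, zsmul_eq_mul, qCoeffLin_apply]
              push_cast
              rfl
            rw [h3] at this
            simpa [LinearMap.sub_apply, Module.End.mul_apply] using this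
          rw [e1, htm', htm'spec, qCoeff_heckeTLin hp hpN f m, if_pos ⟨m', hm'⟩, hdiv, ← hnm]
          norm_num
        · refine ⟨tm * CuspForm.heckeTLin 2 hp hpN, Subalgebra.mul_mem _ htm hT, fun f => ?_⟩
          rw [Module.End.mul_apply, htm', qCoeff_heckeTLin hp hpN f m, if_neg hpm, add_zero,
            ← hnm]

/-- The Sturm bound for `Γ₀(N)` in weight `k`. -/
noncomputable def sturmB (N : ℕ) (k : ℤ) : ℕ := (k * (Gamma0 N).index).toNat / 12

/-- A cusp form of level `Γ₀(N)` all of whose `q`-coefficients up to the Sturm bound vanish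
is zero. -/
theorem eq_zero_of_qCoeff_eq_zero_of_le [NeZero N] (f : CuspForm (Gamma0 N) k)
    (h : ∀ n : ℕ, n ≤ sturmB N k → qCoeff ⇑f n = 0) : f = 0 := by
  have hmf : (ModularFormClass.modularForm f : ModularForm (Gamma0 N) k) = 0 :=
    ModularForm.sturm_bound_Gamma0 N _ fun n hn => h n hn
  have hcoe : (⇑f : ℍ → ℂ) = 0 := by
    have := congrArg (fun F : ModularForm (Gamma0 N) k => (⇑F : ℍ → ℂ)) hmf
    simpa using this
  exact DFunLike.coe_injective (hcoe.trans (FunLike.coe_zero).symm)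

/-- `q`-expansion principle for cusp forms of level `Γ₀(N)`. -/
theorem eq_zero_of_forall_qCoeff_eq_zero [NeZero N] (f : CuspForm (Gamma0 N) k)
    (h : ∀ n : ℕ, qCoeffLin N k n f = 0) : f = 0 :=
  eq_zero_of_qCoeff_eq_zero_of_le f fun n _ => h n

/-- Truncated `q`-expansion as a `ℂ`-linear map. -/
noncomputable def truncLin (N : ℕ) (k : ℤ) :
    CuspForm (Gamma0 N) k →ₗ[ℂ] (Fin (sturmB N k + 1) → ℂ) :=
  LinearMap.pi fun i => qCoeffLin N k i

theorem truncLin_injective (N : ℕ) [NeZero N] (k : ℤ) : Function.Injective (truncLin N k) := by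
  refine (injective_iff_map_eq_zero _).mpr fun f hf => ?_
  refine eq_zero_of_qCoeff_eq_zero_of_le f fun n hn => ?_
  have := congrFun hf ⟨n, Nat.lt_succ_of_le hn⟩
  simpa [truncLin] using this

theorem finiteDimensional_cuspForm (N : ℕ) [NeZero N] (k : ℤ) :
    FiniteDimensional ℂ (CuspForm (Gamma0 N) k) :=
  FiniteDimensional.of_injective (truncLin N k) (truncLin_injective N k)

/-- The additive map `t ↦ a₁(t f)` on the Hecke algebra. -/
noncomputable def coeffOneHom (N : ℕ) [NeZero N] (f : CuspForm (Gamma0 N) 2) :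
    CuspForm.heckeAlgebra N 2 ∅ →+ ℂ where
  toFun t := qCoeff ⇑((t : Module.End ℂ (CuspForm (Gamma0 N) 2)) f) 1
  map_zero' := by
    show qCoeff ⇑((0 : Module.End ℂ (CuspForm (Gamma0 N) 2)) f) 1 = 0
    rw [LinearMap.zero_apply, qCoeff_zero_form]
  map_add' t t' := by
    show qCoeff ⇑(((t : Module.End ℂ (CuspForm (Gamma0 N) 2)) + t') f) 1 = _
    rw [LinearMap.add_apply, qCoeff_add]

/-- If the integral Hecke algebra is a finitely generated `ℤ`-module then, for each weight
two cusp form `f`, all `q`-coefficients of `f` lie in one finitely generated subgroup of `ℂ`. -/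
theorem coeff_mem_fg (N : ℕ) [NeZero N]
    (hfin : Module.Finite ℤ (CuspForm.heckeAlgebra N 2 ∅)) (f : CuspForm (Gamma0 N) 2) :
    ∃ A : AddSubgroup ℂ, A.FG ∧ ∀ n : ℕ, qCoeffLin N 2 n f ∈ A := by
  have : AddGroup.FG (CuspForm.heckeAlgebra N 2 ∅) := Module.Finite.iff_addGroup_fg.mp hfin
  refine ⟨(coeffOneHom N f).range, (AddGroup.fg_iff_addSubgroup_fg _).mp inferInstance,
    fun n => ?_⟩
  rcases Nat.eq_zero_or_pos n with h0 | hpos
  · subst h0
    rw [qCoeffLin_apply, qCoeff_zero_index]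
    exact AddSubgroup.zero_mem _
  · obtain ⟨t, ht, hspec⟩ := exists_hecke_coeff N n hpos
    exact ⟨⟨t, ht⟩, hspec f⟩

end Fermat.Agent.S23.H20
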