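import Mathlib
import Fermat.Agent.S23.Defs_helper30
import Fermat.Agent.S23.Descent_helper11
import Fermat.Agent.S23.HeckeCoeff_helper20

set_option autoImplicit false

namespace Fermat.Agent.S23.H20

open UpperHalfPlane ModularFormClass CongruenceSubgroup
open scoped MatrixGroups ModularForm Manifold

/-- Final assembly of S23: Galois stability of `S₂(Γ₀(N))` on `q`-expansions together with
finite generation of the integral Hecke algebra give an integral structure. -/
theorem hasIntegralStructure_of (N : ℕ) [NeZero N]
    (hgal : Fermat.Agent.S23.H30.GaloisStable N)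
    (hfin : Module.Finite ℤ (CuspForm.heckeAlgebra N 2 ∅)) :
    CuspForm.HasIntegralStructure N 2 := by
  have : FiniteDimensional ℂ (CuspForm (Gamma0 N) 2) := finiteDimensional_cuspForm N 2
  have key := Fermat.Agent.S23.H11.span_integral_of_ringAut_stable_of_fg
    (M := CuspForm (Gamma0 N) 2) (fun n : ℕ => qCoeffLin N 2 n)
    (fun f hf => eq_zero_of_forall_qCoeff_eq_zero f hf)
    (fun σ f => by
      obtain ⟨g, hg⟩ := hgal σ f
      exact ⟨g, fun n => hg n⟩)
    (fun f => coeff_mem_fg N hfin f)
  unfold CuspForm.HasIntegralStructure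
  rw [eq_top_iff, ← key]
  refine Submodule.span_mono ?_
  intro f hf
  refine Submodule.subset_span ?_
  intro n
  obtain ⟨z, hz⟩ := hf n
  exact ⟨z, hz⟩

end Fermat.Agent.S23.H20
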