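import Mathlib
import Fermat.Agent.S23.Defs_helper30

set_option autoImplicit false

namespace Fermat.Agent.S23.H37

open Polynomial

/-- Horner form of `∏_{j ≠ i} (x - U j)`: the coefficients of `P / (X - U i)` are
`∑_l p_{m+1+l} (U i)^l`. -/
theorem horner_eval {ι : Type} [Fintype ι] [DecidableEq ι] (U : ι → ℂ) (i : ι) (x : ℂ) :
    ∑ m ∈ Finset.range (Fintype.card ι), (∑ l ∈ Finset.range (Fintype.card ι - m),
        (∏ j, (X - C (U j))).coeff (m + 1 + l) * U i ^ l) * x ^ m
      = ∏ j ∈ Finset.univ.erase i, (x - U j) := by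
  classical
  set P : ℂ[X] := ∏ j, (X - C (U j)) with hP
  set Qi : ℂ[X] := ∏ j ∈ Finset.univ.erase i, (X - C (U j)) with hQi
  have hPQ : P = (X - C (U i)) * Qi :=
    (Finset.mul_prod_erase Finset.univ (fun j => X - C (U j)) (Finset.mem_univ i)).symm
  have hdiv : P /ₘ (X - C (U i)) = Qi := by
    rw [hPQ]
    exact mul_divByMonic_cancel_left _ (monic_X_sub_C (U i))
  have hPdeg : P.natDegree = Fintype.card ι := by
    rw [hP, natDegree_finsetProd_X_sub_C_eq_card]
    simp
  have hQdeg : Qi.natDegree < Fintype.card ι := by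
    rw [hQi, natDegree_finsetProd_X_sub_C_eq_card, Finset.card_erase_of_mem (Finset.mem_univ i),
      Finset.card_univ]
    exact Nat.sub_lt (Fintype.card_pos_iff.mpr ⟨i⟩) one_pos
  have hcoeff : ∀ m, Qi.coeff m
      = ∑ l ∈ Finset.range (Fintype.card ι - m), P.coeff (m + 1 + l) * U i ^ l := by
    intro m
    rw [← hdiv, coeff_divByMonic_X_sub_C, hPdeg, ← Finset.Ico_add_one_right_eq_Icc,
      Finset.sum_Ico_eq_sum_range]
    have : Fintype.card ι + 1 - (m + 1) = Fintype.card ι - m := by omega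
    rw [this]
    refine Finset.sum_congr rfl fun l _ => ?_
    have : m + 1 + l - (m + 1) = l := by omega
    rw [this, mul_comm]
  have heval : Qi.eval x = ∏ j ∈ Finset.univ.erase i, (x - U j) := by
    rw [hQi, eval_prod]
    simp
  rw [← heval, eval_eq_sum_range' hQdeg]
  refine Finset.sum_congr rfl fun m _ => ?_
  rw [hcoeff]

theorem lagrange_horner {ι : Type} [Fintype ι] [DecidableEq ι] (U F : ι → ℂ) (i₀ : ι) :
    ∑ m ∈ Finset.range (Fintype.card ι), ∑ l ∈ Finset.range (Fintype.card ι - m),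
        (∏ i, (X - C (U i))).coeff (m + 1 + l) * (∑ i, F i * U i ^ l) * U i₀ ^ m
      = F i₀ * ∏ i ∈ Finset.univ.erase i₀, (U i₀ - U i) := by
  classical
  set p : ℕ → ℂ := fun n => (∏ i, (X - C (U i))).coeff n with hp
  have key : ∀ i, ∑ m ∈ Finset.range (Fintype.card ι),
      (∑ l ∈ Finset.range (Fintype.card ι - m), p (m + 1 + l) * U i ^ l) * U i₀ ^ m
      = if i = i₀ then ∏ j ∈ Finset.univ.erase i₀, (U i₀ - U j) else 0 := by
    intro i
    rw [hp]
    rw [horner_eval U i (U i₀)]
    split_ifs with h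
    · rw [h]
    · refine Finset.prod_eq_zero (i := i₀) ?_ (sub_self _)
      exact Finset.mem_erase.mpr ⟨fun h' => h h'.symm, Finset.mem_univ _⟩
  have step : ∑ m ∈ Finset.range (Fintype.card ι), ∑ l ∈ Finset.range (Fintype.card ι - m),
        p (m + 1 + l) * (∑ i, F i * U i ^ l) * U i₀ ^ m
      = ∑ i, F i * ∑ m ∈ Finset.range (Fintype.card ι),
          (∑ l ∈ Finset.range (Fintype.card ι - m), p (m + 1 + l) * U i ^ l) * U i₀ ^ m := by
    have h1 : ∀ m, ∑ l ∈ Finset.range (Fintype.card ι - m),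
        p (m + 1 + l) * (∑ i, F i * U i ^ l) * U i₀ ^ m
        = ∑ i, F i * ((∑ l ∈ Finset.range (Fintype.card ι - m), p (m + 1 + l) * U i ^ l)
            * U i₀ ^ m) := by
      intro m
      have : ∀ l, p (m + 1 + l) * (∑ i, F i * U i ^ l) * U i₀ ^ m
          = ∑ i, F i * (p (m + 1 + l) * U i ^ l * U i₀ ^ m) := by
        intro l
        rw [Finset.mul_sum, Finset.sum_mul]
        refine Finset.sum_congr rfl fun i _ => ?_
        ring
      simp_rw [this]
      rw [Finset.sum_comm]
      refine Finset.sum_congr rfl fun i _ => ?_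
      rw [← Finset.mul_sum, Finset.sum_mul]
    simp_rw [h1]
    rw [Finset.sum_comm]
    refine Finset.sum_congr rfl fun i _ => ?_
    rw [← Finset.mul_sum]
  rw [step]
  simp_rw [key]
  simp

theorem lagrange_deriv {ι : Type} [Fintype ι] [DecidableEq ι] (U : ι → ℂ) (i₀ : ι) :
    ∑ m ∈ Finset.range (Fintype.card ι + 1),
        (m : ℂ) * (∏ i, (X - C (U i))).coeff m * U i₀ ^ (m - 1)
      = ∏ i ∈ Finset.univ.erase i₀, (U i₀ - U i) := by
  classical
  set P : ℂ[X] := ∏ j, (X - C (U j)) with hP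
  have hPdeg : P.natDegree = Fintype.card ι := by
    rw [hP, natDegree_finsetProd_X_sub_C_eq_card]
    simp
  have h1 : (derivative P).eval (U i₀) = ∏ i ∈ Finset.univ.erase i₀, (U i₀ - U i) := by
    rw [hP, derivative_prod_finset, eval_finsetSum]
    rw [Finset.sum_eq_single i₀]
    · simp [eval_prod]
    · intro i _ hi
      rw [eval_mul, eval_prod]
      rw [Finset.prod_eq_zero (i := i₀) (Finset.mem_erase.mpr ⟨fun h => hi h.symm, Finset.mem_univ _⟩)
        (by simp), zero_mul]
    · intro h; exact absurd (Finset.mem_univ _) h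
  rw [← h1, derivative_eval, sum_over_range' _ _ (Fintype.card ι + 1) (by omega)]
  · refine Finset.sum_congr rfl fun m _ => ?_
    ring
  · intro n; simp

/-- Task E4: the Lagrange identity interface of `Defs_helper30`. -/
theorem lagrangeIdentity : Fermat.Agent.S23.H30.LagrangeIdentity := by
  intro ι _ _ U F i₀
  exact ⟨lagrange_horner U F i₀, lagrange_deriv U i₀⟩

end Fermat.Agent.S23.H37
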