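import Mathlib
import Fermat.Agent.S23.Defs_helper30

set_option autoImplicit false

open UpperHalfPlane ModularForm ModularFormClass MatrixGroups EisensteinSeries

namespace Fermat.Agent.S23.H21

/-- `F'` has the `σ`-conjugate `q`-expansion of `F`. -/
def QConj (σ : ℂ ≃+* ℂ) (F F' : ℍ → ℂ) : Prop :=
  qExpansion 1 F' = PowerSeries.map (σ : ℂ →+* ℂ) (qExpansion 1 F)

theorem qConj_iff (σ : ℂ ≃+* ℂ) (F F' : ℍ → ℂ) :
    QConj σ F F' ↔ ∀ n : ℕ, (qExpansion 1 F').coeff n = σ ((qExpansion 1 F).coeff n) := by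
  unfold QConj
  constructor
  · intro h n
    rw [h, PowerSeries.coeff_map]
    rfl
  · intro h
    ext n
    rw [PowerSeries.coeff_map]
    exact h n

theorem map_qExpansion_E (σ : ℂ ≃+* ℂ) {k : ℕ} (hk : 3 ≤ k) (hk2 : Even k) :
    PowerSeries.map (σ : ℂ →+* ℂ) (qExpansion 1 (E hk)) = qExpansion 1 (E hk) := by
  ext m
  rw [PowerSeries.coeff_map, E_qExpansion_coeff hk hk2]
  split_ifs with hm
  · simp
  · have h2 : σ 2 = 2 := map_ofNat σ 2
    simp [map_div₀, h2]

/-- `E₄ ^ 3 - E₆ ^ 2` as a weight 12 form. -/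
noncomputable def e4CubeSubE6Sq : ModularForm 𝒮ℒ 12 :=
  ModularForm.mcast (by decide) (E₄.pow 3) - ModularForm.mcast (by decide) (E₆.pow 2)

theorem e4CubeSubE6Sq_apply (z : ℍ) : e4CubeSubE6Sq z = E₄ z ^ 3 - E₆ z ^ 2 := by
  simp only [e4CubeSubE6Sq, coe_mcast, coe_pow, sub_apply, Pi.pow_apply]

theorem qExpansion_e4CubeSubE6Sq :
    qExpansion 1 e4CubeSubE6Sq = qExpansion 1 E₄ ^ 3 - qExpansion 1 E₆ ^ 2 := by
  simp only [e4CubeSubE6Sq, FunLike.coe_sub, coe_mcast,
    ModularForm.qExpansion_sub one_pos one_mem_strictPeriods_SL,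
    ModularForm.qExpansion_pow one_pos one_mem_strictPeriods_SL]

theorem qExpansion_discriminant :
    qExpansion 1 discriminant =
      (1 / 1728 : ℂ) • (qExpansion 1 E₄ ^ 3 - qExpansion 1 E₆ ^ 2) := by
  have h : (discriminant : ℍ → ℂ) = (1 / 1728 : ℂ) • (e4CubeSubE6Sq : ℍ → ℂ) := by
    funext z
    rw [Pi.smul_apply, e4CubeSubE6Sq_apply, discriminant_eq_E₄_cube_sub_E₆_sq, smul_eq_mul]
    ring
  rw [h, ModularForm.qExpansion_smul one_pos one_mem_strictPeriods_SL, qExpansion_e4CubeSubE6Sq]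

theorem map_qExpansion_discriminant (σ : ℂ ≃+* ℂ) :
    PowerSeries.map (σ : ℂ →+* ℂ) (qExpansion 1 discriminant) = qExpansion 1 discriminant := by
  have h4 := map_qExpansion_E σ (k := 4) (by norm_num) ⟨2, rfl⟩
  have h6 := map_qExpansion_E σ (k := 6) (by norm_num) ⟨3, rfl⟩
  rw [qExpansion_discriminant]
  ext m
  simp only [PowerSeries.coeff_map, PowerSeries.coeff_smul, smul_eq_mul, map_mul]
  congr 1
  · have h2 : σ 1728 = 1728 := map_ofNat σ 1728
    simp [h2]
  · rw [← PowerSeries.coeff_map, map_sub, map_pow, map_pow]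
    rw [h4, h6]

theorem exists_levelOne_qConj_aux (σ : ℂ ≃+* ℂ) :
    ∀ (n : ℕ) (k : ℤ), k < n → ∀ h : ModularForm 𝒮ℒ k, ∃ h' : ModularForm 𝒮ℒ k, QConj σ h h' := by
  intro n
  induction n with
  | zero =>
    intro k hk h
    have h0 : h = 0 :=
      rank_zero_iff_forall_zero.mp (levelOne_neg_weight_rank_zero (by simpa using hk)) h
    refine ⟨0, ?_⟩
    subst h0
    simp [QConj, qExpansion_zero]
  | succ n ih =>
    intro k hk h
    rcases lt_or_ge k n with hlt | hge
    · exact ih k hlt h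
    have hkn : k = n := by push_cast at hk; omega
    subst hkn
    -- weight `n`
    rcases Nat.even_or_odd n with hev | hodd
    swap
    · have h0 : h = 0 := ModularForm.levelOne_odd_weight_eq_zero (by exact_mod_cast hodd) h
      refine ⟨0, ?_⟩
      subst h0
      simp [QConj, qExpansion_zero]
    rcases Nat.lt_or_ge n 3 with hn3 | hn3
    · -- `n = 0` or `n = 2`
      have hn : n = 0 ∨ n = 2 := by
        rcases hev with ⟨r, hr⟩
        omega
      rcases hn with rfl | rfl
      · obtain ⟨c, hc⟩ := ModularFormClass.levelOne_weight_zero_const h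
        refine ⟨ModularForm.const (σ c), ?_⟩
        have e1 : ∀ a : ℂ, qExpansion 1 (Function.const ℍ a) = PowerSeries.C a := by
          intro a
          have h1 : (Function.const ℍ a) = a • ((1 : ModularForm 𝒮ℒ 0) : ℍ → ℂ) := by
            funext z
            simp
          rw [h1, ModularForm.qExpansion_smul one_pos one_mem_strictPeriods_SL,
            ModularForm.qExpansion_one]
          ext m
          simp [PowerSeries.coeff_C, PowerSeries.coeff_one]
        unfold QConj
        rw [hc, ModularForm.coe_const, e1, e1, PowerSeries.map_C]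
        rfl
      · have h0 : h = 0 := rank_zero_iff_forall_zero.mp levelOne_weight_two_rank_zero h
        refine ⟨0, ?_⟩
        subst h0
        simp [QConj, qExpansion_zero]
    · -- `3 ≤ n`, `n` even
      set c : ℂ := (qExpansion 1 h).coeff 0 with hc
      set h₀ : ModularForm 𝒮ℒ (n : ℤ) := h - c • E hn3 with hh₀
      have hq₀ : qExpansion 1 h₀ = qExpansion 1 h - c • qExpansion 1 (E hn3) := by
        rw [hh₀, FunLike.coe_sub, ModularForm.qExpansion_sub one_pos one_mem_strictPeriods_SL,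
          FunLike.coe_smul, ModularForm.qExpansion_smul one_pos one_mem_strictPeriods_SL]
      have hcusp : (qExpansion 1 h₀).coeff 0 = 0 := by
        rw [hq₀, map_sub, PowerSeries.coeff_smul, E_qExpansion_coeff_zero hn3 hev]
        simp [hc]
      obtain ⟨g', hg'⟩ := ih ((n : ℤ) - 12) (by omega)
        (CuspForm.discriminantEquiv (toCuspForm h₀ hcusp))
      have hfac := qExpansion_eq_qExpansion_discriminant_mul h₀ hcusp
      refine ⟨σ c • E hn3 + ModularFormClass.modularForm (CuspForm.ofMulDiscriminant g'), ?_⟩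
      have hB : ((ModularFormClass.modularForm (CuspForm.ofMulDiscriminant g') :
          ModularForm 𝒮ℒ (n : ℤ)) : ℍ → ℂ) =
            (CuspForm.discriminant : ℍ → ℂ) * (g' : ℍ → ℂ) := by
        funext z
        simp [CuspForm.ofMulDiscriminant_apply]
      have hsmul : ∀ (a : ℂ) (P : PowerSeries ℂ),
          PowerSeries.map (σ : ℂ →+* ℂ) (a • P) = σ a • PowerSeries.map (σ : ℂ →+* ℂ) P := by
        intro a P
        ext m
        simp [PowerSeries.coeff_map]
      unfold QConj at hg' ⊢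
      rw [FunLike.coe_add, ModularForm.qExpansion_add one_pos one_mem_strictPeriods_SL,
        FunLike.coe_smul, ModularForm.qExpansion_smul one_pos one_mem_strictPeriods_SL, hB,
        ModularForm.qExpansion_mul_coe one_pos one_mem_strictPeriods_SL, hg']
      have hq : qExpansion 1 h = qExpansion 1 h₀ + c • qExpansion 1 (E hn3) := by
        rw [hq₀]; ring
      rw [hq, map_add, hsmul, map_qExpansion_E σ hn3 hev, hfac, map_mul,
        CuspForm.coe_discriminant, map_qExpansion_discriminant]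
      ring

/-- Every level-one modular form has a `σ`-conjugate (coefficientwise on `q`-expansions). -/
theorem exists_levelOne_qConj (σ : ℂ ≃+* ℂ) (k : ℤ) (h : ModularForm 𝒮ℒ k) :
    ∃ h' : ModularForm 𝒮ℒ k, QConj σ h h' :=
  exists_levelOne_qConj_aux σ (k.toNat + 1) k (by omega) h

theorem exists_levelOne_conj (σ : ℂ ≃+* ℂ) (k : ℤ) (h : ModularForm 𝒮ℒ k) :
    ∃ h' : ModularForm 𝒮ℒ k,
      ∀ n : ℕ, (qExpansion 1 h').coeff n = σ ((qExpansion 1 h).coeff n) := by
  obtain ⟨h', hh'⟩ := exists_levelOne_qConj σ k h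
  exact ⟨h', (qConj_iff σ h h').mp hh'⟩

/-- Every level-one cusp form has a `σ`-conjugate cusp form. -/
theorem exists_levelOne_cuspForm_qConj (σ : ℂ ≃+* ℂ) (k : ℤ) (f : CuspForm 𝒮ℒ k) :
    ∃ f' : CuspForm 𝒮ℒ k, QConj σ f f' := by
  obtain ⟨h', hh'⟩ := exists_levelOne_qConj σ k (ModularFormClass.modularForm f)
  have h0 : (qExpansion 1 (ModularFormClass.modularForm f : ModularForm 𝒮ℒ k)).coeff 0 = 0 :=
    CuspFormClass.qExpansion_coeff_zero f one_pos one_mem_strictPeriods_SL
  have h0' : (qExpansion 1 h').coeff 0 = 0 := by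
    rw [(qConj_iff σ _ _).mp hh' 0, h0, map_zero]
  exact ⟨toCuspForm h' h0', hh'⟩

theorem exists_levelOne_cuspForm_conj (σ : ℂ ≃+* ℂ) (k : ℤ) (f : CuspForm 𝒮ℒ k) :
    ∃ f' : CuspForm 𝒮ℒ k,
      ∀ n : ℕ, (qExpansion 1 f').coeff n = σ ((qExpansion 1 f).coeff n) := by
  obtain ⟨f', hf'⟩ := exists_levelOne_cuspForm_qConj σ k f
  exact ⟨f', (qConj_iff σ f f').mp hf'⟩

/-- Task E1 of the S23 interface. -/
theorem levelOneGalois : Fermat.Agent.S23.H30.LevelOneGalois :=
  fun σ k h => exists_levelOne_conj σ k h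

end Fermat.Agent.S23.H21
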