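import Mathlib
import Fermat.Agent.S23.Defs_helper30

set_option autoImplicit false

open Complex Filter Topology UpperHalfPlane ModularForm CongruenceSubgroup
open Matrix.SpecialLinearGroup
open scoped MatrixGroups Manifold

namespace Fermat.Agent.S23.H10

/-- Cauchy root bound for a monic polynomial relation. -/
theorem norm_le_of_monic_rel {d : ℕ} (x : ℂ) (a : Fin d → ℂ)
    (h : x ^ d + ∑ i : Fin d, a i * x ^ (i : ℕ) = 0) :
    ‖x‖ ≤ max 1 (∑ i : Fin d, ‖a i‖) := by
  by_contra hcon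
  rw [not_le, max_lt_iff] at hcon
  obtain ⟨h1, h2⟩ := hcon
  have hd : 0 < d := by
    rcases Nat.eq_zero_or_pos d with rfl | hd
    · simp at h
    · exact hd
  have hx0 : 0 < ‖x‖ := lt_trans zero_lt_one h1
  have key : ‖x‖ ^ d ≤ (∑ i : Fin d, ‖a i‖) * ‖x‖ ^ (d - 1) := by
    have e1 : x ^ d = - ∑ i : Fin d, a i * x ^ (i : ℕ) := eq_neg_of_add_eq_zero_left h
    calc ‖x‖ ^ d = ‖x ^ d‖ := (norm_pow x d).symm
      _ = ‖∑ i : Fin d, a i * x ^ (i : ℕ)‖ := by rw [e1, norm_neg]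
      _ ≤ ∑ i : Fin d, ‖a i * x ^ (i : ℕ)‖ := norm_sum_le _ _
      _ ≤ ∑ i : Fin d, ‖a i‖ * ‖x‖ ^ (d - 1) := by
          refine Finset.sum_le_sum fun i _ => ?_
          rw [norm_mul, norm_pow]
          refine mul_le_mul_of_nonneg_left ?_ (norm_nonneg _)
          exact pow_le_pow_right₀ h1.le (by have := i.2; omega)
      _ = (∑ i : Fin d, ‖a i‖) * ‖x‖ ^ (d - 1) := by rw [Finset.sum_mul]
  have e2 : ‖x‖ ^ d = ‖x‖ * ‖x‖ ^ (d - 1) := by
    rw [← pow_succ']; congr 1; omega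
  rw [e2] at key
  have hpos : 0 < ‖x‖ ^ (d - 1) := pow_pos hx0 _
  have := le_of_mul_le_mul_right key hpos
  linarith

/-- Integrality step: if `G/D` satisfies a monic polynomial relation with holomorphic
coefficients on a preconnected open set, then `D` divides `G` holomorphically. -/
theorem exists_quotient_of_monic_rel {U : Set ℂ} (hU : IsOpen U) (hconn : IsPreconnected U)
    {d : ℕ} {G D : ℂ → ℂ} {c : Fin d → ℂ → ℂ}
    (hG : DifferentiableOn ℂ G U) (hD : DifferentiableOn ℂ D U)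
    (hc : ∀ i, DifferentiableOn ℂ (c i) U) (hD0 : ∃ z ∈ U, D z ≠ 0)
    (hrel : ∀ z ∈ U, G z ^ d + ∑ i : Fin d, c i z * G z ^ (i : ℕ) * D z ^ (d - i) = 0) :
    ∃ g : ℂ → ℂ, DifferentiableOn ℂ g U ∧ (∀ z ∈ U, g z * D z = G z) ∧
      ∀ z ∈ U, g z ^ d + ∑ i : Fin d, c i z * g z ^ (i : ℕ) = 0 := by
  classical
  have hd : 0 < d := by
    obtain ⟨z, hz, -⟩ := hD0
    rcases Nat.eq_zero_or_pos d with rfl | hd
    · have := hrel z hz
      simp at this
    · exact hd
  have hDan : AnalyticOnNhd ℂ D U := (analyticOnNhd_iff_differentiableOn hU).mpr hD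
  have hiso : ∀ z₀ ∈ U, ∀ᶠ z in 𝓝[≠] z₀, D z ≠ 0 := by
    intro z₀ hz₀
    rcases (hDan z₀ hz₀).eventually_eq_zero_or_eventually_ne_zero with h | h
    · exfalso
      obtain ⟨w, hw, hDw⟩ := hD0
      exact hDw (hDan.eqOn_zero_of_preconnected_of_eventuallyEq_zero hconn hz₀ h hw)
    · exact h
  set q : ℂ → ℂ := fun z => G z / D z with hq
  have hqrel : ∀ z ∈ U, D z ≠ 0 → q z ^ d + ∑ i : Fin d, c i z * q z ^ (i : ℕ) = 0 := by
    intro z hz hDz
    have h := hrel z hz
    have key : (q z ^ d + ∑ i : Fin d, c i z * q z ^ (i : ℕ)) * D z ^ d = 0 := by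
      rw [add_mul, Finset.sum_mul, ← h]
      congr 1
      · simp only [hq]
        rw [← mul_pow, div_mul_cancel₀ _ hDz]
      · refine Finset.sum_congr rfl fun i _ => ?_
        have hi : (i : ℕ) + (d - i) = d := by have := i.2; omega
        have hpow : D z ^ d = D z ^ (i : ℕ) * D z ^ (d - i) := by rw [← pow_add, hi]
        simp only [hq]
        rw [hpow, div_pow]
        field_simp
    exact (mul_eq_zero.mp key).resolve_right (pow_ne_zero _ hDz)
  set g : ℂ → ℂ := fun z => if D z = 0 then limUnder (𝓝[≠] z) q else q z with hg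
  have hqdiff : ∀ z ∈ U, D z ≠ 0 → DifferentiableAt ℂ q z := by
    intro z hz hDz
    exact (hG.differentiableAt (hU.mem_nhds hz)).div (hD.differentiableAt (hU.mem_nhds hz)) hDz
  have hgdiff : ∀ z₀ ∈ U, DifferentiableAt ℂ g z₀ := by
    intro z₀ hz₀
    by_cases hDz : D z₀ = 0
    · have h1 : ∀ᶠ z in 𝓝 z₀, z ∈ U := hU.mem_nhds hz₀
      have h2 : ∀ᶠ z in 𝓝 z₀, z ≠ z₀ → D z ≠ 0 := by
        have := hiso z₀ hz₀
        rw [eventually_nhdsWithin_iff] at this
        exact this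
      have h3 : ∀ᶠ z in 𝓝 z₀, ∀ i, ‖c i z‖ < ‖c i z₀‖ + 1 := by
        rw [eventually_all]
        intro i
        have hci : ContinuousAt (c i) z₀ :=
          ((hc i).differentiableAt (hU.mem_nhds hz₀)).continuousAt
        exact hci.norm.eventually_lt continuousAt_const (lt_add_one _)
      obtain ⟨s, hs, hsP⟩ := (h1.and (h2.and h3)).exists_mem
      have hdiff : DifferentiableOn ℂ q (s \ {z₀}) := by
        intro z hz
        have hzs := hsP z hz.1
        exact (hqdiff z hzs.1 (hzs.2.1 hz.2)).differentiableWithinAt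
      have hbdd : BddAbove (norm ∘ q '' (s \ {z₀})) := by
        refine ⟨max 1 (∑ i : Fin d, (‖c i z₀‖ + 1)), ?_⟩
        rintro _ ⟨z, hz, rfl⟩
        have hzs := hsP z hz.1
        have hb := norm_le_of_monic_rel (q z) (fun i => c i z) (hqrel z hzs.1 (hzs.2.1 hz.2))
        refine hb.trans (max_le_max le_rfl ?_)
        exact Finset.sum_le_sum fun i _ => (hzs.2.2 i).le
      have hupd := Complex.differentiableOn_update_limUnder_of_bddAbove hs hdiff hbdd
      have hupd' : DifferentiableAt ℂ (Function.update q z₀ (limUnder (𝓝[≠] z₀) q)) z₀ :=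
        hupd.differentiableAt hs
      refine hupd'.congr_of_eventuallyEq ?_
      filter_upwards [hs] with z hz
      by_cases hzz : z = z₀
      · subst hzz
        simp only [hg, if_pos hDz, Function.update_self]
      · have hzs := hsP z hz
        simp only [hg, if_neg (hzs.2.1 hzz), Function.update_of_ne hzz]
    · have hDc : ContinuousAt D z₀ := (hD.differentiableAt (hU.mem_nhds hz₀)).continuousAt
      have hne : ∀ᶠ z in 𝓝 z₀, D z ≠ 0 := hDc.eventually_ne hDz
      refine (hqdiff z₀ hz₀ hDz).congr_of_eventuallyEq ?_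
      filter_upwards [hne] with z hz
      simp only [hg, if_neg hz]
  have hgD : ∀ z ∈ U, g z * D z = G z := by
    intro z hz
    by_cases hDz : D z = 0
    · have h := hrel z hz
      have hGz : G z = 0 := by
        have hGd : G z ^ d = 0 := by
          have hsum : ∑ i : Fin d, c i z * G z ^ (i : ℕ) * D z ^ (d - i) = 0 := by
            refine Finset.sum_eq_zero fun i _ => ?_
            have hne : d - (i : ℕ) ≠ 0 := by have := i.2; omega
            rw [hDz, zero_pow hne, mul_zero]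
          rwa [hsum, add_zero] at h
        exact (pow_eq_zero_iff hd.ne').mp hGd
      rw [hDz, hGz, mul_zero]
    · simp only [hg, if_neg hDz, hq]
      exact div_mul_cancel₀ _ hDz
  have hgrel : ∀ z ∈ U, g z ^ d + ∑ i : Fin d, c i z * g z ^ (i : ℕ) = 0 := by
    intro z₀ hz₀
    set h : ℂ → ℂ := fun z => g z ^ d + ∑ i : Fin d, c i z * g z ^ (i : ℕ) with hh
    have hcont : ContinuousAt h z₀ := by
      have hgc : ContinuousAt g z₀ := (hgdiff z₀ hz₀).continuousAt
      have hcc : ∀ i, ContinuousAt (c i) z₀ := fun i =>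
        ((hc i).differentiableAt (hU.mem_nhds hz₀)).continuousAt
      exact (hgc.pow d).add (tendsto_finsetSum _ fun i _ => (hcc i).mul (hgc.pow _))
    have hev : ∀ᶠ z in 𝓝[≠] z₀, h z = 0 := by
      have h1 : ∀ᶠ z in 𝓝[≠] z₀, z ∈ U :=
        Filter.Eventually.filter_mono nhdsWithin_le_nhds (hU.mem_nhds hz₀)
      filter_upwards [hiso z₀ hz₀, h1] with z hDz hzU
      simp only [hh, hg, if_neg hDz]
      exact hqrel z hzU hDz
    have ht1 : Tendsto h (𝓝[≠] z₀) (𝓝 (h z₀)) := hcont.tendsto.mono_left nhdsWithin_le_nhds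
    have ht2 : Tendsto h (𝓝[≠] z₀) (𝓝 0) :=
      tendsto_const_nhds.congr' (hev.mono fun z hz => hz.symm)
    exact tendsto_nhds_unique ht1 ht2
  exact ⟨g, fun z hz => (hgdiff z hz).differentiableWithinAt, hgD, hgrel⟩

/-- Small-coefficient version of the root bound. -/
theorem norm_le_of_monic_rel_of_sum_le {d : ℕ} (x : ℂ) (a : Fin d → ℂ)
    (h : x ^ d + ∑ i : Fin d, a i * x ^ (i : ℕ) = 0) {ε : ℝ} (hε : 0 < ε) (hε1 : ε ≤ 1)
    (hsum : ∑ i : Fin d, ‖a i‖ ≤ ε ^ d) : ‖x‖ ≤ ε := by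
  have hεc : (ε : ℂ) ≠ 0 := by exact_mod_cast hε.ne'
  set y : ℂ := x / ε with hy
  set b : Fin d → ℂ := fun i => a i * (ε : ℂ) ^ (i : ℕ) / (ε : ℂ) ^ d with hb
  have hrel : y ^ d + ∑ i : Fin d, b i * y ^ (i : ℕ) = 0 := by
    have key : (y ^ d + ∑ i : Fin d, b i * y ^ (i : ℕ)) * (ε : ℂ) ^ d = 0 := by
      rw [add_mul, Finset.sum_mul, ← h]
      congr 1
      · rw [hy, ← mul_pow, div_mul_cancel₀ _ hεc]
      · refine Finset.sum_congr rfl fun i _ => ?_
        simp only [hb, hy, div_pow]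
        field_simp
    exact (mul_eq_zero.mp key).resolve_right (pow_ne_zero _ hεc)
  have hbound := norm_le_of_monic_rel y b hrel
  have hb_le : ∑ i : Fin d, ‖b i‖ ≤ 1 := by
    have h1 : ∀ i : Fin d, ‖b i‖ ≤ ‖a i‖ / ε ^ d := by
      intro i
      simp only [hb, norm_div, norm_mul, norm_pow, Complex.norm_real, Real.norm_eq_abs,
        abs_of_pos hε]
      refine div_le_div_of_nonneg_right ?_ (pow_pos hε d).le
      exact mul_le_of_le_one_right (norm_nonneg _) (pow_le_one₀ hε.le hε1)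
    calc ∑ i : Fin d, ‖b i‖ ≤ ∑ i : Fin d, ‖a i‖ / ε ^ d := Finset.sum_le_sum fun i _ => h1 i
      _ = (∑ i : Fin d, ‖a i‖) / ε ^ d := by rw [Finset.sum_div]
      _ ≤ 1 := by
          rw [div_le_one (pow_pos hε d)]
          exact hsum
  have hy1 : ‖y‖ ≤ 1 := hbound.trans (max_le le_rfl hb_le)
  have : ‖x‖ = ‖y‖ * ε := by
    rw [hy, norm_div, Complex.norm_real, Real.norm_eq_abs, abs_of_pos hε,
      div_mul_cancel₀ _ hε.ne']
  rw [this]
  calc ‖y‖ * ε ≤ 1 * ε := mul_le_mul_of_nonneg_right hy1 hε.le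
    _ = ε := one_mul ε

/-- A family of roots of monic polynomials whose lower coefficients tend to zero tends to zero. -/
theorem tendsto_zero_of_monic_rel {α : Type*} {l : Filter α} {d : ℕ} (x : α → ℂ)
    (a : Fin d → α → ℂ)
    (h : ∀ t, x t ^ d + ∑ i : Fin d, a i t * x t ^ (i : ℕ) = 0)
    (ha : ∀ i, Tendsto (a i) l (𝓝 0)) : Tendsto x l (𝓝 0) := by
  rw [Metric.tendsto_nhds]
  intro ε hε
  set ε' : ℝ := min ε 1 / 2 with hε'
  have hε'pos : 0 < ε' := by positivity
  have hε'1 : ε' ≤ 1 := by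
    have : min ε 1 ≤ 1 := min_le_right _ _
    rw [hε']; linarith
  have hε'lt : ε' < ε := by
    have : min ε 1 ≤ ε := min_le_left _ _
    have h2 : 0 < min ε 1 := lt_min hε one_pos
    rw [hε']; linarith
  have hsum : Tendsto (fun t => ∑ i : Fin d, ‖a i t‖) l (𝓝 0) := by
    have : Tendsto (fun t => ∑ i : Fin d, ‖a i t‖) l (𝓝 (∑ _i : Fin d, (0 : ℝ))) :=
      tendsto_finsetSum _ fun i _ => by simpa using (ha i).norm
    simpa using this
  have hev : ∀ᶠ t in l, ∑ i : Fin d, ‖a i t‖ < ε' ^ d :=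
    hsum.eventually_lt tendsto_const_nhds (pow_pos hε'pos d)
  filter_upwards [hev] with t ht
  rw [dist_zero_right]
  exact lt_of_le_of_lt
    (norm_le_of_monic_rel_of_sum_le (x t) (fun i => a i t) (h t) hε'pos hε'1 ht.le) hε'lt

/-- Upper half plane version of `exists_quotient_of_monic_rel`. -/
theorem exists_quotient_of_monic_rel_UHP {d : ℕ} {G D : ℍ → ℂ} {c : Fin d → ℍ → ℂ}
    (hG : MDiff G) (hD : MDiff D) (hc : ∀ i, MDiff (c i)) (hD0 : D ≠ 0)
    (hrel : ∀ z : ℍ, G z ^ d + ∑ i : Fin d, c i z * G z ^ (i : ℕ) * D z ^ (d - i) = 0) :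
    ∃ g : ℍ → ℂ, MDiff g ∧ (∀ z, g z * D z = G z) ∧
      ∀ z, g z ^ d + ∑ i : Fin d, c i z * g z ^ (i : ℕ) = 0 := by
  rw [mdifferentiable_iff] at hG hD
  have hc' : ∀ i, DifferentiableOn ℂ (c i ∘ ofComplex) {z | 0 < z.im} := fun i =>
    mdifferentiable_iff.mp (hc i)
  have hD0' : ∃ z ∈ {z : ℂ | 0 < z.im}, (D ∘ ofComplex) z ≠ 0 := by
    obtain ⟨τ, hτ⟩ : ∃ τ, D τ ≠ 0 := by
      obtain ⟨τ, hτ⟩ := Function.ne_iff.mp hD0
      exact ⟨τ, hτ⟩
    exact ⟨τ, τ.im_pos, by simpa [ofComplex_apply] using hτ⟩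
  have hconn : IsPreconnected {z : ℂ | 0 < z.im} :=
    (convex_halfSpace_im_gt 0).isPreconnected
  obtain ⟨g₀, hg₀, hg₀D, hg₀rel⟩ := exists_quotient_of_monic_rel isOpen_upperHalfPlaneSet hconn
    hG hD hc' hD0' (fun z _ => hrel (ofComplex z))
  refine ⟨fun τ => g₀ τ, ?_, ?_, ?_⟩
  · rw [mdifferentiable_iff]
    refine hg₀.congr fun z hz => ?_
    simp [Function.comp_apply, ofComplex_apply_of_im_pos hz]
  · intro τ
    simpa [ofComplex_apply] using hg₀D τ τ.im_pos
  · intro τ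
    simpa [ofComplex_apply] using hg₀rel τ τ.im_pos

/-- **Analytic core.** If `G / D` (quotient of modular forms on `Γ₀(N)` of weights `w + 2` and `w`)
satisfies a monic polynomial relation whose lower coefficients are level one cusp forms of the
appropriate weights, then `G / D` is a cusp form of weight `2` on `Γ₀(N)`. -/
theorem exists_cuspForm_of_monic_rel (N : ℕ) [NeZero N] {d : ℕ} {w : ℤ}
    (G : ModularForm (Gamma0 N) (w + 2)) (D : ModularForm (Gamma0 N) w) (hD : D ≠ 0)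
    (k : Fin d → ℤ) (c : ∀ i : Fin d, CuspForm 𝒮ℒ (k i))
    (hk : ∀ i : Fin d, k i = 2 * ((d : ℤ) - (i : ℕ)))
    (hrel : ∀ z : ℍ, G z ^ d + ∑ i : Fin d, c i z * G z ^ (i : ℕ) * D z ^ (d - (i : ℕ)) = 0) :
    ∃ g : CuspForm (Gamma0 N) 2, ∀ z : ℍ, g z * D z = G z := by
  have hD0 : (D : ℍ → ℂ) ≠ 0 := fun h => hD (DFunLike.coe_injective h)
  obtain ⟨g, hg, hgD, hgrel⟩ := exists_quotient_of_monic_rel_UHP (G := G) (D := D)
    (c := fun i => c i) (ModularFormClass.holo G) (ModularFormClass.holo D)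
    (fun i => CuspFormClass.holo (c i)) hD0 hrel
  have hinv : ∀ γ : SL(2, ℤ), γ ∈ Gamma0 N → g ∣[(2 : ℤ)] γ = g := by
    intro γ hγ
    have hGγ : (G : ℍ → ℂ) ∣[w + 2] γ = G :=
      SlashInvariantFormClass.slash_action_eq G _ ⟨γ, hγ, rfl⟩
    have hDγ : (D : ℍ → ℂ) ∣[w] γ = D :=
      SlashInvariantFormClass.slash_action_eq D _ ⟨γ, hγ, rfl⟩
    have hprod : g * (D : ℍ → ℂ) = G := funext hgD
    have h1 : (g ∣[(2 : ℤ)] γ) * (D : ℍ → ℂ) = G := by
      have := mul_slash_SL2 2 w γ g D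
      rw [hprod, hDγ] at this
      rw [← this, add_comm, hGγ]
    have h2 : (g ∣[(2 : ℤ)] γ - g) * (D : ℍ → ℂ) = 0 := by rw [sub_mul, h1, hprod, sub_self]
    rcases (UpperHalfPlane.mul_eq_zero_iff ((hg.slash 2 _).sub hg)
      (ModularFormClass.holo D)).mp h2 with h | h
    · exact sub_eq_zero.mp h
    · exact absurd h hD0
  have hzero : ∀ γ : SL(2, ℤ), IsZeroAtImInfty (g ∣[(2 : ℤ)] γ) := by
    intro γ
    refine tendsto_zero_of_monic_rel (g ∣[(2 : ℤ)] γ) (fun i => c i) ?_ ?_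
    · intro z
      have hr := hgrel (γ • z)
      have hδ : denom γ z ≠ 0 := denom_ne_zero γ z
      have hci : ∀ i : Fin d, c i z = c i (γ • z) * ((denom γ z)⁻¹) ^ (2 * (d - (i : ℕ))) := by
        intro i
        have h1 : ((c i : ℍ → ℂ) ∣[k i] γ) z = c i z :=
          congrFun (SlashInvariantFormClass.slash_action_eq (c i) _ ⟨γ, rfl⟩) z
        rw [SL_slash_apply] at h1
        rw [← h1]
        congr 1
        rw [hk i]
        have hcast : (2 * ((d : ℤ) - (i : ℕ))) = ((2 * (d - (i : ℕ)) : ℕ) : ℤ) := by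
          have := i.2
          push_cast [Nat.cast_sub this.le]
          ring
        rw [hcast, zpow_neg, zpow_natCast, inv_pow]
      have hg2 : (g ∣[(2 : ℤ)] γ) z = g (γ • z) * ((denom γ z)⁻¹) ^ 2 := by
        rw [SL_slash_apply, zpow_neg, inv_pow]
        norm_cast
      set A := g (γ • z) with hA
      set ι := (denom γ z)⁻¹ with hι
      have key : (g ∣[(2 : ℤ)] γ) z ^ d + ∑ i : Fin d, c i z * (g ∣[(2 : ℤ)] γ) z ^ (i : ℕ) =
          ι ^ (2 * d) * (A ^ d + ∑ i : Fin d, c i (γ • z) * A ^ (i : ℕ)) := by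
        rw [mul_add, Finset.mul_sum, hg2]
        congr 1
        · rw [mul_pow, ← pow_mul]; ring
        · refine Finset.sum_congr rfl fun i _ => ?_
          have hi : 2 * d = 2 * (i : ℕ) + 2 * (d - (i : ℕ)) := by have := i.2; omega
          rw [hci i, hi, pow_add, mul_pow, ← pow_mul]
          ring
      rw [key, hr, mul_zero]
    · intro i
      exact CuspFormClass.zero_at_infty (c i)
  refine ⟨{ toFun := g
            slash_action_eq' := ?_
            holo' := hg
            zero_at_cusps' := ?_ }, fun z => hgD z⟩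
  · intro γ hγ
    obtain ⟨γ₀, hγ₀, rfl⟩ := Subgroup.mem_map.mp hγ
    exact hinv γ₀ hγ₀
  · intro c hc
    rw [Subgroup.IsArithmetic.isCusp_iff_isCusp_SL2Z] at hc
    rw [OnePoint.isZeroAt_iff_forall_SL2Z hc]
    intro γ _
    exact hzero γ

/-- **Analytic core, function-level form** (interface E5 of block E). -/
theorem analyticCore (N : ℕ) [NeZero N] : Fermat.Agent.S23.H30.AnalyticCore N := by
  intro d w G D c _hd hG hD hc hGinv hDinv hcinv hczero hD0 hrel
  have hrel' : ∀ z : ℍ,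
      G z ^ d + ∑ i : Fin d, c i z * G z ^ (i : ℕ) * D z ^ (d - (i : ℕ)) = 0 := by
    intro z
    rw [Fin.sum_univ_eq_sum_range (fun i => c i z * G z ^ i * D z ^ (d - i)) d]
    exact hrel z
  obtain ⟨g, hg, hgD, hgrel⟩ := exists_quotient_of_monic_rel_UHP (G := G) (D := D)
    (c := fun i : Fin d => c i) hG hD (fun i => hc i i.2) hD0 hrel'
  have hinv : ∀ γ : SL(2, ℤ), γ ∈ Gamma0 N → g ∣[(2 : ℤ)] γ = g := by
    intro γ hγ
    have hGγ : G ∣[w + 2] γ = G := hGinv γ hγ
    have hDγ : D ∣[w] γ = D := hDinv γ hγ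
    have hprod : g * D = G := funext hgD
    have h1 : (g ∣[(2 : ℤ)] γ) * D = G := by
      have := mul_slash_SL2 2 w γ g D
      rw [hprod, hDγ] at this
      rw [← this, add_comm, hGγ]
    have h2 : (g ∣[(2 : ℤ)] γ - g) * D = 0 := by rw [sub_mul, h1, hprod, sub_self]
    rcases (UpperHalfPlane.mul_eq_zero_iff ((hg.slash 2 _).sub hg) hD).mp h2 with h | h
    · exact sub_eq_zero.mp h
    · exact absurd h hD0
  have hzero : ∀ γ : SL(2, ℤ), IsZeroAtImInfty (g ∣[(2 : ℤ)] γ) := by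
    intro γ
    refine tendsto_zero_of_monic_rel (g ∣[(2 : ℤ)] γ) (fun i : Fin d => c i) ?_ ?_
    · intro z
      have hr := hgrel (γ • z)
      have hδ : denom γ z ≠ 0 := denom_ne_zero γ z
      have hci : ∀ i : Fin d, c i z = c i (γ • z) * ((denom γ z)⁻¹) ^ (2 * (d - (i : ℕ))) := by
        intro i
        have h1 : (c i ∣[2 * ((d - (i : ℕ) : ℕ) : ℤ)] γ) z = c i z :=
          congrFun (hcinv i i.2 γ) z
        rw [SL_slash_apply] at h1
        rw [← h1]
        congr 1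
        have hcast : (2 * ((d - (i : ℕ) : ℕ) : ℤ)) = ((2 * (d - (i : ℕ)) : ℕ) : ℤ) := by
          push_cast
          ring
        rw [hcast, zpow_neg, zpow_natCast, inv_pow]
      have hg2 : (g ∣[(2 : ℤ)] γ) z = g (γ • z) * ((denom γ z)⁻¹) ^ 2 := by
        rw [SL_slash_apply, zpow_neg, inv_pow]
        norm_cast
      set A := g (γ • z) with hA
      set ι := (denom γ z)⁻¹ with hι
      have key : (g ∣[(2 : ℤ)] γ) z ^ d + ∑ i : Fin d, c i z * (g ∣[(2 : ℤ)] γ) z ^ (i : ℕ) =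
          ι ^ (2 * d) * (A ^ d + ∑ i : Fin d, c i (γ • z) * A ^ (i : ℕ)) := by
        rw [mul_add, Finset.mul_sum, hg2]
        congr 1
        · rw [mul_pow, ← pow_mul]; ring
        · refine Finset.sum_congr rfl fun i _ => ?_
          have hi : 2 * d = 2 * (i : ℕ) + 2 * (d - (i : ℕ)) := by have := i.2; omega
          rw [hci i, hi, pow_add, mul_pow, ← pow_mul]
          ring
      rw [key, hr, mul_zero]
    · intro i
      exact hczero i i.2
  refine ⟨{ toFun := g
            slash_action_eq' := ?_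
            holo' := hg
            zero_at_cusps' := ?_ }, fun z => hgD z⟩
  · intro γ hγ
    obtain ⟨γ₀, hγ₀, rfl⟩ := Subgroup.mem_map.mp hγ
    exact hinv γ₀ hγ₀
  · intro c hc
    rw [Subgroup.IsArithmetic.isCusp_iff_isCusp_SL2Z] at hc
    rw [OnePoint.isZeroAt_iff_forall_SL2Z hc]
    intro γ _
    exact hzero γ

end Fermat.Agent.S23.H10
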