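import Mathlib
import Fermat.Agent.S23.Defs_helper30

set_option autoImplicit false

namespace Fermat.Agent.S23.H91

open UpperHalfPlane ModularForm CongruenceSubgroup
open scoped MatrixGroups ModularForm Manifold

/-- `u ^ l` as a modular form of weight `k * l`. -/
noncomputable def powForm {Γ : Subgroup (GL (Fin 2) ℝ)} [Γ.HasDetPlusMinusOne] {k : ℤ}
    (u : ModularForm Γ k) : (l : ℕ) → ModularForm Γ (k * (l : ℤ))
  | 0 => ModularForm.mcast (by simp) (1 : ModularForm Γ 0)
  | l + 1 => ModularForm.mcast (by push_cast; ring) ((powForm u l).mul u)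

theorem powForm_apply {Γ : Subgroup (GL (Fin 2) ℝ)} [Γ.HasDetPlusMinusOne] {k : ℤ}
    (u : ModularForm Γ k) (l : ℕ) (z : ℍ) : powForm u l z = u z ^ l := by
  induction l with
  | zero => simp [powForm, ModularForm.mcast_apply]
  | succ l ih =>
    rw [powForm, ModularForm.mcast_apply, ModularForm.coe_mul, Pi.mul_apply, ih, pow_succ]

/-- slash of a product with a power, for determinant one matrices. -/
theorem mul_pow_slash (k₁ k₂ : ℤ) (A : GL (Fin 2) ℝ) (hA : |(A.det : ℝ)| = 1) (f u : ℍ → ℂ)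
    (l : ℕ) : (f * u ^ l) ∣[k₁ + k₂ * (l : ℤ)] A = (f ∣[k₁] A) * (u ∣[k₂] A) ^ l := by
  induction l generalizing f k₁ with
  | zero => simp
  | succ l ih =>
    have h1 : f * u ^ (l + 1) = (f * u) * u ^ l := by rw [pow_succ']; ring
    have h2 : k₁ + k₂ * ((l + 1 : ℕ) : ℤ) = (k₁ + k₂) + k₂ * (l : ℤ) := by push_cast; ring
    rw [h1, h2, ih, ModularForm.mul_slash, hA, one_smul, pow_succ']
    ring

theorem coe_powForm {Γ : Subgroup (GL (Fin 2) ℝ)} [Γ.HasDetPlusMinusOne] {k : ℤ}
    (u : ModularForm Γ k) (l : ℕ) : (⇑(powForm u l) : ℍ → ℂ) = (⇑u) ^ l := by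
  funext z
  rw [powForm_apply, Pi.pow_apply]

/-- E3c: traces of `f * u ^ l`. -/
theorem traceForms (N : ℕ) [NeZero N] : Fermat.Agent.S23.H30.TraceForms N := by
  intro k₁ k₂ f u l
  let g : CuspForm (Gamma0 N : Subgroup (GL (Fin 2) ℝ)) (k₁ + k₂ * (l : ℤ)) :=
    f.mulModularForm (powForm u l)
  refine ⟨ModularForm.trace 𝒮ℒ g, fun z => ?_⟩
  rw [ModularForm.coe_trace, Finset.sum_apply]
  have key : ∀ q : H30.Q N, SlashInvariantForm.quotientFunc (ℋ := 𝒮ℒ) g q z =
      H30.conj f q z * H30.conj u q z ^ l := by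
    intro q
    induction q using Quotient.inductionOn with
    | h r =>
      unfold H30.conj
      rw [SlashInvariantForm.quotientFunc_mk, SlashInvariantForm.quotientFunc_mk,
        SlashInvariantForm.quotientFunc_mk]
      have hg : (⇑g : ℍ → ℂ) = ⇑f * (⇑u) ^ l := by
        rw [CuspForm.coe_mulModularForm, coe_powForm]
      rw [hg, mul_pow_slash k₁ k₂ _ ?_ _ _ l]
      · rfl
      · exact Subgroup.HasDetPlusMinusOne.abs_det (inv_mem r.2)
  have hsum : ∀ (i1 i2 : Fintype (H30.Q N)) (F : H30.Q N → ℂ),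
      (@Finset.univ _ i1).sum F = (@Finset.univ _ i2).sum F := by
    intro i1 i2 F
    rw [Subsingleton.elim i1 i2]
  exact (hsum _ _ _).trans (Finset.sum_congr rfl fun q _ => key q)

end Fermat.Agent.S23.H91
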