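import Mathlib
import Fermat.Agent.S23.Defs_helper30
import Fermat.Agent.S23.Glue_helper30
import Fermat.Agent.S23.LevelOneConj_helper21
import Fermat.Agent.S23.Charpoly_helper73
import Fermat.Agent.S23.Trace_helper91
import Fermat.Agent.S23.Lagrange_helper37
import Fermat.Agent.S23.RootStep_helper10
import Fermat.Agent.S23.Assembly_helper20

/-!
# Block E of S23, assembled

Everything except the primitive element (interface E2) is discharged here.
-/

set_option autoImplicit false

namespace Fermat.Agent.S23.H30

/-- Galois stability of `S₂(Γ₀(N))`, given a primitive element. -/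
theorem galoisStable_of_primitive (N : ℕ) [NeZero N] (h2 : PrimitiveExists N) :
    GaloisStable N :=
  galoisStable_of N H21.levelOneGalois h2 (H73.charpolyForms N) (H73.charpolyCuspForms N)
    (H91.traceForms N) H37.lagrangeIdentity (H10.analyticCore N)

/-- The integral structure in weight two, given a primitive element and finiteness of the
Hecke algebra. -/
theorem hasIntegralStructure_of_primitive (N : ℕ) [NeZero N] (h2 : PrimitiveExists N)
    (hfin : Module.Finite ℤ (CuspForm.heckeAlgebra N 2 ∅)) :
    CuspForm.HasIntegralStructure N 2 :=
  H20.hasIntegralStructure_of N (galoisStable_of_primitive N h2) hfin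

end Fermat.Agent.S23.H30
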